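/-
PROGRAMME III (S48, Deligne–Serre), kernel DS4-ALG (helper28), part 2: vocabulary.

* `IsNeben k ψ h`: nebentypus `ψ` as a form (the vocabulary of the E1 contract);
* `heckeSeq w p`: the formal Hecke operator `c ↦ (c_{pn} + w [p ∣ n] c_{n/p})_n` on sequences,
  and the commutation of two of them at distinct primes;
* `HeckeRel`, `HasHecke` (named input = DS0b on the nebentypus space);
* `coeffMap`: the `q`-expansion as a linear map on `S_k(Γ₁(M))`, injective; finite dimensionality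
  (Prelude Sturm bound);
* `nebenSpace M k ψ`: the nebentypus subspace.
-/
import Mathlib
import Fermat.Agent.S23.Basic
import Fermat.Prelude.Def_FLTPrelim_Modularity
import Fermat.Prelude.Thm_ModularForm_sturm_bound_of_isArithmetic

set_option autoImplicit false

open scoped MatrixGroups ModularForm
open CongruenceSubgroup UpperHalfPlane ModularFormClass

namespace Fermat.Agent.DS.DS4

/-- nebentypus `ψ` as a form: the vocabulary of the E1 contract. -/
def IsNeben {M : ℕ} (k : ℤ) (ψ : DirichletCharacter ℂ M) (h : ℍ → ℂ) : Prop :=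
  ∀ γ ∈ Gamma0 M, h ∣[k] γ = ψ ((γ 1 1 : ℤ) : ZMod M) • h

/-! ### Formal Hecke operators -/

/-- the formal Hecke operator at `p` with weight factor `w` (`= ψ(p) p^{k-1}`) on sequences. -/
def heckeSeq (w : ℂ) (p : ℕ) : (ℕ → ℂ) →ₗ[ℂ] (ℕ → ℂ) where
  toFun c n := c (p * n) + w * (if p ∣ n then c (n / p) else 0)
  map_add' c d := by
    funext n
    simp only [Pi.add_apply]
    split_ifs <;> ring
  map_smul' a c := by
    funext n
    simp only [Pi.smul_apply, smul_eq_mul, RingHom.id_apply]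
    split_ifs <;> ring

theorem heckeSeq_apply (w : ℂ) (p : ℕ) (c : ℕ → ℂ) (n : ℕ) :
    heckeSeq w p c n = c (p * n) + w * (if p ∣ n then c (n / p) else 0) := rfl

/-- formal Hecke operators at distinct primes commute. -/
theorem heckeSeq_comm (w w' : ℂ) {p q : ℕ} (hp : p.Prime) (hq : q.Prime) (hpq : p ≠ q)
    (c : ℕ → ℂ) : heckeSeq w p (heckeSeq w' q c) = heckeSeq w' q (heckeSeq w p c) := by
  have hcop : Nat.Coprime p q := (Nat.coprime_primes hp hq).mpr hpq
  funext n
  simp only [heckeSeq_apply]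
  have e1 : q ∣ p * n ↔ q ∣ n := (Nat.Coprime.dvd_mul_left hcop.symm)
  have e2 : p ∣ q * n ↔ p ∣ n := (Nat.Coprime.dvd_mul_left hcop)
  have e0 : q * (p * n) = p * (q * n) := by ring
  by_cases hpn : p ∣ n <;> by_cases hqn : q ∣ n
  · -- both divide
    obtain ⟨m, rfl⟩ := hpn
    have hqm : q ∣ m := (Nat.Coprime.dvd_mul_left hcop.symm).mp hqn
    obtain ⟨r, rfl⟩ := hqm
    have a1 : p * (p * (q * r)) / q = p * (p * r) := by
      rw [show p * (p * (q * r)) = q * (p * (p * r)) by ring]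
      exact Nat.mul_div_cancel_left _ hq.pos
    have a2 : p * (q * r) / p = q * r := Nat.mul_div_cancel_left _ hp.pos
    have a3 : q * (p * (q * r)) / p = q * (q * r) := by
      rw [show q * (p * (q * r)) = p * (q * (q * r)) by ring]
      exact Nat.mul_div_cancel_left _ hp.pos
    have a4 : p * (q * r) / q = p * r := by
      rw [show p * (q * r) = q * (p * r) by ring]
      exact Nat.mul_div_cancel_left _ hq.pos
    have a5 : q * r / q = r := Nat.mul_div_cancel_left _ hq.pos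
    have a6 : p * r / p = r := Nat.mul_div_cancel_left _ hp.pos
    have d1 : q ∣ p * (p * (q * r)) := ⟨p * (p * r), by ring⟩
    have d2 : p ∣ p * (q * r) := ⟨q * r, rfl⟩
    have d3 : q ∣ q * r := ⟨r, rfl⟩
    have d4 : p ∣ q * (p * (q * r)) := ⟨q * (q * r), by ring⟩
    have d5 : q ∣ p * (q * r) := ⟨p * r, by ring⟩
    have d6 : p ∣ p * r := ⟨r, rfl⟩
    rw [if_pos d1, if_pos d2, if_pos d4, if_pos d5, a1, a2, a3, a4, if_pos d3, if_pos d6, a5, a6,
      e0]
    ring
  · -- `p ∣ n`, `q ∤ n`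
    obtain ⟨m, rfl⟩ := hpn
    have hqm : ¬ q ∣ m := fun h => hqn (Dvd.dvd.mul_left h p)
    have a2 : p * m / p = m := Nat.mul_div_cancel_left _ hp.pos
    have a3 : q * (p * m) / p = q * m := by
      rw [show q * (p * m) = p * (q * m) by ring]
      exact Nat.mul_div_cancel_left _ hp.pos
    have d1 : ¬ q ∣ p * (p * m) := fun h => hqn (e1.mp h)
    have d2 : p ∣ p * m := ⟨m, rfl⟩
    have d4 : p ∣ q * (p * m) := ⟨q * m, by ring⟩
    rw [if_neg d1, if_pos d2, if_pos d4, if_neg hqn, a2, a3, if_neg hqm, e0]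
    ring
  · -- `p ∤ n`, `q ∣ n`
    obtain ⟨m, rfl⟩ := hqn
    have hpm : ¬ p ∣ m := fun h => hpn (Dvd.dvd.mul_left h q)
    have a1 : p * (q * m) / q = p * m := by
      rw [show p * (q * m) = q * (p * m) by ring]
      exact Nat.mul_div_cancel_left _ hq.pos
    have a5 : q * m / q = m := Nat.mul_div_cancel_left _ hq.pos
    have d1 : q ∣ p * (q * m) := ⟨p * m, by ring⟩
    have d3 : q ∣ q * m := ⟨m, rfl⟩
    have d4 : ¬ p ∣ q * (q * m) := fun h => hpn (e2.mp h)
    rw [if_pos d1, if_neg hpn, if_neg d4, if_pos d3, a1, a5, if_neg hpm, e0]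
    ring
  · -- neither
    have d1 : ¬ q ∣ p * n := fun h => hqn (e1.mp h)
    have d4 : ¬ p ∣ q * n := fun h => hpn (e2.mp h)
    rw [if_neg d1, if_neg hpn, if_neg d4, if_neg hqn, e0]
    ring

/-- the formal Hecke relations of weight `k`, character `ψ` on the primes `p ∤ M`:
`c` is an eigenvector with eigenvalues `b`. -/
def HeckeRel (M : ℕ) (k : ℕ) (ψ : DirichletCharacter ℂ M) (c b : ℕ → ℂ) : Prop :=
  ∀ p : ℕ, p.Prime → ¬ p ∣ M → ∀ n : ℕ,
    c (p * n) + ψ (p : ZMod M) * (p : ℂ) ^ (k - 1) * (if p ∣ n then c (n / p) else 0) = b p * c n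

/-- NAMED INPUT (DS0b at weight `k`, level `M`, character `ψ`): the Hecke operators `T_p`, `p ∤ M`,
on the nebentypus space, through their `q`-expansion. -/
def HasHecke (M : ℕ) (k : ℕ) (ψ : DirichletCharacter ℂ M) : Prop :=
  ∀ p : ℕ, p.Prime → ¬ p ∣ M → ∀ h : CuspForm (Gamma1 M) k, IsNeben k ψ h →
    ∃ h' : CuspForm (Gamma1 M) k, IsNeben k ψ h' ∧ ∀ n : ℕ,
      qCoeff h' n = qCoeff h (p * n) +
        ψ (p : ZMod M) * (p : ℂ) ^ (k - 1) * (if p ∣ n then qCoeff h (n / p) else 0)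

/-! ### `q`-expansions on `Γ₁(M)` -/

theorem one_mem_strictPeriods_Gamma1 (M : ℕ) :
    (1 : ℝ) ∈ (Gamma1 M : Subgroup (GL (Fin 2) ℝ)).strictPeriods := by
  rw [strictPeriods_Gamma1]
  exact AddSubgroup.mem_zmultiples 1

theorem isNice_Gamma1 {M : ℕ} [NeZero M] {k : ℤ} {F : Type*} [FunLike F ℍ ℂ]
    [ModularFormClass F (Gamma1 M : Subgroup (GL (Fin 2) ℝ)) k] (f : F) :
    Fermat.Agent.S23.IsNice (f : ℍ → ℂ) :=
  Fermat.Agent.S23.isNice_of_modularForm (one_mem_strictPeriods_Gamma1 M) f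

/-- the `q`-expansion as a linear map on `S_k(Γ₁(M))`. -/
noncomputable def coeffMap (M : ℕ) [NeZero M] (k : ℤ) :
    CuspForm (Gamma1 M) k →ₗ[ℂ] (ℕ → ℂ) where
  toFun f n := qCoeff f n
  map_add' f g := by
    funext n
    have h := (isNice_Gamma1 f).qExpansion_add (isNice_Gamma1 g)
    have hc : (⇑(f + g) : ℍ → ℂ) = ⇑f + ⇑g := rfl
    simp only [qCoeff, Pi.add_apply]
    rw [hc, h, map_add]
  map_smul' a f := by
    funext n
    have h := (isNice_Gamma1 f).qExpansion_smul a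
    have hc : (⇑(a • f) : ℍ → ℂ) = a • ⇑f := rfl
    simp only [qCoeff, Pi.smul_apply, RingHom.id_apply]
    rw [hc, h]
    simp

@[simp] theorem coeffMap_apply (M : ℕ) [NeZero M] (k : ℤ) (f : CuspForm (Gamma1 M) k) (n : ℕ) :
    coeffMap M k f n = qCoeff f n := rfl

theorem coeffMap_injective (M : ℕ) [NeZero M] (k : ℤ) : Function.Injective (coeffMap M k) := by
  rw [injective_iff_map_eq_zero]
  intro f hf
  have hq : qExpansion 1 (f : ℍ → ℂ) = 0 := by
    ext n
    have := congrFun hf n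
    simpa [qCoeff] using this
  have hn := isNice_Gamma1 f
  have h0 := (qExpansion_eq_zero_iff one_pos hn.1 hn.2.1 hn.2.2).mp hq
  exact DFunLike.coe_injective h0

/-- the Sturm bound of `Γ₁(M)` in weight `k`. -/
noncomputable def sturm (M : ℕ) (k : ℤ) : ℕ :=
  (k * (Gamma1 M : Subgroup (GL (Fin 2) ℝ)).relIndex 𝒮ℒ).toNat / 12

/-- a cusp form on `Γ₁(M)` whose first coefficients vanish is zero. -/
theorem eq_zero_of_qCoeff_le_sturm {M : ℕ} [NeZero M] {k : ℤ} (f : CuspForm (Gamma1 M) k)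
    (h : ∀ n ≤ sturm M k, qCoeff f n = 0) : f = 0 := by
  have h0 : (ModularFormClass.modularForm f : ModularForm (Gamma1 M) k) = 0 := by
    apply ModularForm.sturm_bound_of_isArithmetic (one_mem_strictPeriods_Gamma1 M)
    have h1 : ((sturm M k + 1 : ℕ) : ℕ∞) ≤
        (qExpansion 1 (ModularFormClass.modularForm f : ModularForm (Gamma1 M) k)).order :=
      PowerSeries.nat_le_order _ _ (fun i hi => h i (Nat.lt_succ_iff.mp hi))
    refine lt_of_lt_of_le ?_ h1
    show ((sturm M k : ℕ) : ℕ∞) < ((sturm M k + 1 : ℕ) : ℕ∞)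
    exact_mod_cast Nat.lt_succ_self _
  apply DFunLike.coe_injective
  have := congrArg (fun g : ModularForm (Gamma1 M) k => (g : ℍ → ℂ)) h0
  simpa using this

theorem finiteDimensional_cuspForm_Gamma1 (M : ℕ) [NeZero M] (k : ℤ) :
    FiniteDimensional ℂ (CuspForm (Gamma1 M) k) := by
  have hL : Function.Injective
      (LinearMap.pi fun i : Fin (sturm M k + 1) =>
        (LinearMap.proj (i : ℕ) : (ℕ → ℂ) →ₗ[ℂ] ℂ) ∘ₗ coeffMap M k) := by
    rw [injective_iff_map_eq_zero]
    intro f hf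
    apply eq_zero_of_qCoeff_le_sturm
    intro n hn
    have := congrFun hf ⟨n, Nat.lt_succ_of_le hn⟩
    simpa using this
  exact FiniteDimensional.of_injective _ hL

/-! ### The nebentypus subspace -/

/-- the nebentypus subspace of `S_k(Γ₁(M))`. -/
def nebenSpace (M : ℕ) (k : ℤ) (ψ : DirichletCharacter ℂ M) :
    Submodule ℂ (CuspForm (Gamma1 M) k) where
  carrier := {h | IsNeben k ψ h}
  zero_mem' := by
    intro γ _
    show (0 : ℍ → ℂ) ∣[k] γ = _ • (0 : ℍ → ℂ)
    rw [SlashAction.zero_slash, smul_zero]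
  add_mem' := by
    intro f g hf hg γ hγ
    show ((⇑f + ⇑g : ℍ → ℂ)) ∣[k] γ = _ • (⇑f + ⇑g : ℍ → ℂ)
    rw [SlashAction.add_slash, hf γ hγ, hg γ hγ, smul_add]
  smul_mem' := by
    intro a f hf γ hγ
    show ((a • ⇑f : ℍ → ℂ)) ∣[k] γ = _ • (a • ⇑f : ℍ → ℂ)
    rw [ModularForm.SL_smul_slash, hf γ hγ, smul_comm]

theorem mem_nebenSpace {M : ℕ} {k : ℤ} {ψ : DirichletCharacter ℂ M} {h : CuspForm (Gamma1 M) k} :
    h ∈ nebenSpace M k ψ ↔ IsNeben k ψ h := Iff.rfl

end Fermat.Agent.DS.DS4
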