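/-
PROGRAMME III (S48, Deligne–Serre), kernel DS4-ALG (helper28), part 1: the abstract lifting lemma.

Deligne–Serre, Lemme 6.11, in the elementary form of `Fermat.Agent.S49.deligneSerre` (on main),
generalised in two directions needed for weight one:
 * the eigenvalues modulo `𝔪` are arbitrary algebraic integers (not rational integers);
 * "congruent to zero modulo `𝔪`" is an arbitrary additive subgroup `B` of `V`, stable under the
   algebraic integers and under the operators (for `q`-expansions: all coefficients in `𝔪`).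
Integrality of the eigenvalues is a hypothesis (`hint`); `deligneSerre_lattice` derives it from a
finitely generated spanning `ℤ`-lattice as on main.
-/
import Mathlib
import Fermat.Agent.S49.CommonEigen
import Fermat.Agent.S49.Integral

set_option autoImplicit false

namespace Fermat.Agent.DS.DS4

open Module Fermat.Agent.S49

section Lift

variable {V : Type*} [AddCommGroup V] [Module ℂ V]

local notation "Rbar" => integralClosure ℤ ℂ

/-- the bookkeeping predicate: `A` stabilises `B` and acts on `f` as the scalar `c` modulo `B`. -/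
def ActsModB (B : AddSubgroup V) (f : V) (A : Module.End ℂ V) (c : Rbar) : Prop :=
  (∀ z ∈ B, A z ∈ B) ∧ A f - (c : ℂ) • f ∈ B

theorem ActsModB.one (B : AddSubgroup V) (f : V) : ActsModB B f 1 1 :=
  ⟨fun z hz => hz, by simp⟩

theorem ActsModB.mul {B : AddSubgroup V} (hB : ∀ (r : Rbar), ∀ z ∈ B, (r : ℂ) • z ∈ B) {f : V}
    {A A' : Module.End ℂ V} {c c' : Rbar}
    (h : ActsModB B f A c) (h' : ActsModB B f A' c') : ActsModB B f (A * A') (c * c') := by
  refine ⟨fun z hz => h.1 _ (h'.1 z hz), ?_⟩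
  have e : (A * A') f - ((c * c' : Rbar) : ℂ) • f =
      A (A' f - (c' : ℂ) • f) + (c' : ℂ) • (A f - (c : ℂ) • f) := by
    rw [Module.End.mul_apply, map_sub, map_smul, smul_sub, smul_smul]
    push_cast
    rw [mul_comm (c' : ℂ) (c : ℂ)]
    abel
  rw [e]
  exact B.add_mem (h.1 _ h'.2) (hB c' _ h.2)

theorem ActsModB.pow {B : AddSubgroup V} (hB : ∀ (r : Rbar), ∀ z ∈ B, (r : ℂ) • z ∈ B) {f : V}
    {A : Module.End ℂ V} {c : Rbar} (h : ActsModB B f A c) (k : ℕ) :
    ActsModB B f (A ^ k) (c ^ k) := by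
  induction k with
  | zero => simpa using ActsModB.one B f
  | succ k ih => rw [pow_succ, pow_succ]; exact ih.mul hB h

theorem ActsModB.sub_eigen {B : AddSubgroup V} (hB : ∀ (r : Rbar), ∀ z ∈ B, (r : ℂ) • z ∈ B)
    (f : V) (T : Module.End ℂ V) (hT : ∀ z ∈ B, T z ∈ B) (a : Rbar)
    (hTf : T f - (a : ℂ) • f ∈ B) (r : Rbar) :
    ActsModB B f (T - (r : ℂ) • (1 : Module.End ℂ V)) (-(r - a)) := by
  refine ⟨fun z hz => ?_, ?_⟩
  · rw [LinearMap.sub_apply, LinearMap.smul_apply, Module.End.one_apply]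
    exact B.sub_mem (hT z hz) (hB r z hz)
  · have e : (T - (r : ℂ) • (1 : Module.End ℂ V)) f - ((-(r - a) : Rbar) : ℂ) • f =
        T f - (a : ℂ) • f := by
      rw [LinearMap.sub_apply, LinearMap.smul_apply, Module.End.one_apply]
      push_cast
      rw [neg_smul, sub_smul]
      abel
    rw [e]
    exact hTf

variable [FiniteDimensional ℂ V]

/-- **Deligne–Serre lifting lemma**, elementary form with algebraic-integer eigenvalues and an
abstract "zero modulo `𝔪`" subgroup `B`. -/
theorem deligneSerre_mod {ι : Type*} (T : ι → Module.End ℂ V)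
    (hcomm : ∀ i j, Commute (T i) (T j))
    (hint : ∀ i (μ : ℂ) (v : V), v ≠ 0 → T i v = μ • v → IsIntegral ℤ μ)
    (𝔪 : Ideal Rbar) (h𝔪 : 𝔪.IsPrime)
    (B : AddSubgroup V) (hB : ∀ (r : Rbar), ∀ z ∈ B, (r : ℂ) • z ∈ B)
    (hBT : ∀ i, ∀ z ∈ B, T i z ∈ B)
    (f : V) (hf : ∀ c : Rbar, (c : ℂ) • f ∈ B → c ∈ 𝔪)
    (a : ι → Rbar) (ha : ∀ i, T i f - (a i : ℂ) • f ∈ B) :
    ∃ (v : V) (lam : ι → Rbar), v ≠ 0 ∧ (∀ i, T i v = (lam i : ℂ) • v) ∧
      ∀ i, lam i - a i ∈ 𝔪 := by
  classical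
  -- simultaneous generalised eigenspace decomposition
  have hdecomp : ⨆ χ : ι → ℂ, ⨅ i, (T i).maxGenEigenspace (χ i) = ⊤ := by
    refine Module.End.iSup_iInf_maxGenEigenspace_eq_top_of_iSup_maxGenEigenspace_eq_top_of_commute
      T (fun i j _ => hcomm i j) (fun i => Module.End.iSup_maxGenEigenspace_eq_top (T i))
  -- every nonzero simultaneous generalised eigenspace contains a common eigenvector
  have hcommon : ∀ χ : ι → ℂ, (⨅ i, (T i).maxGenEigenspace (χ i)) ≠ ⊥ →
      ∃ v : V, v ≠ 0 ∧ ∀ i, T i v = χ i • v := by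
    intro χ hχ
    have hinv : ∀ i, ∀ x ∈ (⨅ j, (T j).maxGenEigenspace (χ j)), T i x ∈
        (⨅ j, (T j).maxGenEigenspace (χ j)) := by
      intro i x hx
      rw [Submodule.mem_iInf] at hx ⊢
      intro j
      exact Module.End.mapsTo_maxGenEigenspace_of_comm (hcomm j i) (χ j) (hx j)
    obtain ⟨v, hvW, hv0, hv⟩ := exists_common_eigenvector T hcomm _ _ rfl hχ hinv
    refine ⟨v, hv0, fun i => ?_⟩
    obtain ⟨μ, hμ⟩ := hv i
    have hmem : v ∈ (T i).maxGenEigenspace (χ i) := (Submodule.mem_iInf _).mp hvW i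
    rw [hμ, eigenvalue_eq_of_mem_maxGenEigenspace (T i) (χ i) μ v hv0 hmem hμ]
  have hint' : ∀ χ : ι → ℂ, (⨅ i, (T i).maxGenEigenspace (χ i)) ≠ ⊥ →
      ∀ i, IsIntegral ℤ (χ i) := by
    intro χ hχ i
    obtain ⟨v, hv0, hv⟩ := hcommon χ hχ
    exact hint i (χ i) v hv0 (hv i)
  -- the key claim
  have key : ∃ χ : ι → ℂ, (⨅ i, (T i).maxGenEigenspace (χ i)) ≠ ⊥ ∧
      ∀ i, ∃ r : Rbar, (r : ℂ) = χ i ∧ r - a i ∈ 𝔪 := by
    by_contra hcon
    push Not at hcon
    have hmot : ∀ x : V, x ∈ (⨆ χ : ι → ℂ, ⨅ i, (T i).maxGenEigenspace (χ i)) →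
        ∃ (A : Module.End ℂ V) (c : Rbar), (∀ i, Commute A (T i)) ∧
          (∀ B' : Module.End ℂ V, (∀ i, Commute B' (T i)) → Commute A B') ∧ ActsModB B f A c ∧
          c ∉ 𝔪 ∧ A x = 0 := by
      intro x hx
      refine Submodule.iSup_induction (fun χ : ι → ℂ => ⨅ i, (T i).maxGenEigenspace (χ i))
        (motive := fun x => ∃ (A : Module.End ℂ V) (c : Rbar), (∀ i, Commute A (T i)) ∧
          (∀ B' : Module.End ℂ V, (∀ i, Commute B' (T i)) → Commute A B') ∧ ActsModB B f A c ∧
          c ∉ 𝔪 ∧ A x = 0) hx ?_ ?_ ?_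
      · intro χ x hx
        by_cases hx0 : x = 0
        · exact ⟨1, 1, fun i => Commute.one_left _, fun B' _ => Commute.one_left _,
            ActsModB.one B f,
            fun h => h𝔪.ne_top ((Ideal.eq_top_iff_one _).mpr h), by simp [hx0]⟩
        · have hχ : (⨅ i, (T i).maxGenEigenspace (χ i)) ≠ ⊥ := fun h => hx0 (by
            rw [h] at hx; simpa using hx)
          obtain ⟨i, hi⟩ := hcon χ hχ
          set r : Rbar := ⟨χ i, hint' χ hχ i⟩ with hr
          have hri : r - a i ∉ 𝔪 := hi r rfl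
          have hxi : x ∈ (T i).maxGenEigenspace (χ i) := (Submodule.mem_iInf _).mp hx i
          obtain ⟨k, hk⟩ := (Module.End.mem_maxGenEigenspace _ _ _).mp hxi
          refine ⟨(T i - (r : ℂ) • (1 : Module.End ℂ V)) ^ k, (-(r - a i)) ^ k,
            fun j => ?_, fun B' hB' => ?_,
            (ActsModB.sub_eigen hB f (T i) (hBT i) (a i) (ha i) r).pow hB k, ?_, hk⟩
          · exact ((hcomm i j).sub_left ((Commute.one_left _).smul_left _)).pow_left k
          · exact (((hB' i).symm).sub_left ((Commute.one_left _).smul_left _)).pow_left k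
          · intro hmem
            exact hri (neg_mem_iff.mp (h𝔪.mem_of_pow_mem k hmem))
      · exact ⟨1, 1, fun i => Commute.one_left _, fun B' _ => Commute.one_left _,
          ActsModB.one B f,
          fun h => h𝔪.ne_top ((Ideal.eq_top_iff_one _).mpr h), by simp⟩
      · intro x y hx hy
        obtain ⟨A, c, hAc, hAb, hA, hc, hAx⟩ := hx
        obtain ⟨A', c', hAc', hAb', hA', hc', hAy⟩ := hy
        refine ⟨A * A', c * c', fun i => (hAc i).mul_left (hAc' i),
          fun B' hB' => (hAb B' hB').mul_left (hAb' B' hB'), hA.mul hB hA', ?_, ?_⟩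
        · intro h
          rcases h𝔪.mem_or_mem h with h | h
          · exact hc h
          · exact hc' h
        · have hAA' : Commute A A' := hAb A' hAc'
          rw [map_add, Module.End.mul_apply, Module.End.mul_apply, hAy, map_zero, add_zero]
          have := congrArg (fun g : Module.End ℂ V => g x) hAA'.eq
          simp only [Module.End.mul_apply] at this
          rw [this, hAx, map_zero]
    obtain ⟨A, c, -, -, hA, hc, hAf⟩ := hmot f (hdecomp ▸ Submodule.mem_top)
    have h1 : (c : ℂ) • f ∈ B := by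
      have := hA.2
      rw [hAf, zero_sub] at this
      simpa using B.neg_mem this
    exact hc (hf c h1)
  obtain ⟨χ, hχ, hr⟩ := key
  obtain ⟨v, hv0, hv⟩ := hcommon χ hχ
  choose lam hlam1 hlam2 using hr
  exact ⟨v, lam, hv0, fun i => by rw [hlam1 i]; exact hv i, hlam2⟩

/-- The same with integrality of the eigenvalues coming from a finitely generated `ℤ`-lattice
`L`, stable under the operators, which need NOT span `V`: the eigenvector is found in the complex
span of `L`. -/
theorem deligneSerre_lattice {ι : Type*} (T : ι → Module.End ℂ V)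
    (hcomm : ∀ i j, Commute (T i) (T j))
    (L : Submodule ℤ V) (hLfg : L.FG) (hLT : ∀ i, ∀ x ∈ L, T i x ∈ L)
    (𝔪 : Ideal Rbar) (h𝔪 : 𝔪.IsPrime)
    (B : AddSubgroup V) (hB : ∀ (r : Rbar), ∀ z ∈ B, (r : ℂ) • z ∈ B)
    (hBT : ∀ i, ∀ z ∈ B, T i z ∈ B)
    (f : V) (hfL : f ∈ L) (hf : ∀ c : Rbar, (c : ℂ) • f ∈ B → c ∈ 𝔪)
    (a : ι → Rbar) (ha : ∀ i, T i f - (a i : ℂ) • f ∈ B) :
    ∃ (v : V) (lam : ι → Rbar), v ≠ 0 ∧ (∀ i, T i v = (lam i : ℂ) • v) ∧
      ∀ i, lam i - a i ∈ 𝔪 := by
  classical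
  -- the complex span of the lattice
  let W : Submodule ℂ V := Submodule.span ℂ (L : Set V)
  have hWT : ∀ i, ∀ w ∈ W, T i w ∈ W := by
    intro i w hw
    have h1 : W ≤ W.comap (T i) := Submodule.span_le.mpr (fun x hx => by
      show T i x ∈ W
      exact Submodule.subset_span (hLT i x hx))
    exact h1 hw
  let T' : ι → Module.End ℂ W := fun i => (T i).restrict (hWT i)
  have hT'comm : ∀ i j, Commute (T' i) (T' j) := by
    intro i j
    show T' i * T' j = T' j * T' i
    refine LinearMap.ext fun w => Subtype.ext ?_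
    have := congrArg (fun g : Module.End ℂ V => g (w : V)) (hcomm i j).eq
    simp only [Module.End.mul_apply] at this
    exact this
  -- the lattice inside `W`
  let incl : L →ₗ[ℤ] W :=
    { toFun := fun x => ⟨(x : V), Submodule.subset_span x.2⟩
      map_add' := fun x y => rfl
      map_smul' := fun n x => rfl }
  let L' : Submodule ℤ W := LinearMap.range incl
  have hL'fg : L'.FG := by
    have : Module.Finite ℤ L := Module.Finite.iff_fg.mpr hLfg
    show (LinearMap.range incl).FG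
    rw [LinearMap.range_eq_map]
    exact Submodule.FG.map incl Module.Finite.fg_top
  have hL'span : Submodule.span ℂ (L' : Set W) = ⊤ := by
    apply Submodule.map_injective_of_injective W.injective_subtype
    rw [Submodule.map_span, Submodule.map_subtype_top]
    show Submodule.span ℂ (W.subtype '' (L' : Set W)) = Submodule.span ℂ (L : Set V)
    congr 1
    ext x
    constructor
    · rintro ⟨_, ⟨y, rfl⟩, rfl⟩
      exact y.2
    · intro hx
      exact ⟨incl ⟨x, hx⟩, ⟨⟨x, hx⟩, rfl⟩, rfl⟩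
  have hL'T : ∀ i, ∀ x ∈ L', T' i x ∈ L' := by
    rintro i _ ⟨x, rfl⟩
    exact ⟨⟨T i x, hLT i x x.2⟩, Subtype.ext rfl⟩
  have hint : ∀ i (μ : ℂ) (w : W), w ≠ 0 → T' i w = μ • w → IsIntegral ℤ μ := fun i μ w hw h =>
    isIntegral_eigenvalue L' hL'fg hL'span (T' i) (hL'T i) w hw μ h
  let B' : AddSubgroup W := B.comap W.subtype.toAddMonoidHom
  have hB' : ∀ (r : Rbar), ∀ z ∈ B', (r : ℂ) • z ∈ B' := fun r z hz => hB r _ hz
  have hB'T : ∀ i, ∀ z ∈ B', T' i z ∈ B' := fun i z hz => hBT i _ hz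
  have hfW : f ∈ W := Submodule.subset_span hfL
  obtain ⟨w, lam, hw0, hw, hlam⟩ := deligneSerre_mod T' hT'comm hint 𝔪 h𝔪 B' hB' hB'T ⟨f, hfW⟩
    (fun c hc => hf c hc) a (fun i => ha i)
  exact ⟨w, lam, fun h => hw0 (Subtype.ext h), fun i => congrArg Subtype.val (hw i), hlam⟩

end Lift

end Fermat.Agent.DS.DS4
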