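/-
PROGRAMME III (S48, Deligne–Serre), kernel DS4-ALG (helper28), part 3: lifting mod-`𝔪` eigenforms
with nebentypus to characteristic-zero eigen-systems (`exists_eigen_lift`).

Input: the Hecke operators on the nebentypus space through their `q`-expansions (`HasHecke`), a
subring `𝓞 ⊆ ℂ`, finite over `ℤ`, containing the values of `ψ`; a form `f` of nebentypus `ψ` with
coefficients in `𝓞`, nonzero modulo the prime `𝔪` of `ℤ̄`, which is an eigenvector modulo `𝔪` of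
the `T_p`, `p ∤ M`, with eigenvalues `a p ∈ ℤ̄`.  Output: a nonzero form `v` of nebentypus `ψ`,
eigenvector of all `T_p`, `p ∤ M`, with eigenvalues `b p ∈ ℤ̄`, `b p ≡ a p` modulo the same `𝔪`.
-/
import Fermat.Agent.DS.DS4.Lift
import Fermat.Agent.DS.DS4.Defs

set_option autoImplicit false

open scoped MatrixGroups ModularForm
open CongruenceSubgroup UpperHalfPlane ModularFormClass

namespace Fermat.Agent.DS.DS4

local notation "Zbar" => integralClosure ℤ ℂ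

/-- an endomorphism with prescribed formal action on the (injective) coefficient map. -/
theorem exists_end_of_formal {V : Type*} [AddCommGroup V] [Module ℂ V]
    (c : V →ₗ[ℂ] (ℕ → ℂ)) (hc : Function.Injective c) (Φ : (ℕ → ℂ) →ₗ[ℂ] (ℕ → ℂ))
    (h : ∀ v, ∃ v', c v' = Φ (c v)) : ∃ T : Module.End ℂ V, ∀ v, c (T v) = Φ (c v) := by
  choose t ht using h
  refine ⟨{ toFun := t, map_add' := ?_, map_smul' := ?_ }, ht⟩
  · intro x y
    apply hc
    rw [map_add, ht, ht, ht, map_add, map_add]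
  · intro a x
    apply hc
    rw [map_smul, ht, ht, map_smul, map_smul]
    rfl

/-- a `ℤ`-lattice whose coefficients lie in a finitely generated `ℤ`-module, the first `m`
coefficients being jointly injective, is finitely generated. -/
theorem fg_of_coeff_mem {V : Type*} [AddCommGroup V] [Module ℂ V] (c : V →ₗ[ℂ] (ℕ → ℂ)) (m : ℕ)
    (hm : ∀ v, (∀ n < m, c v n = 0) → v = 0) (P : Submodule ℤ ℂ) (hP : P.FG)
    (L : Submodule ℤ V) (hL : ∀ v ∈ L, ∀ n, c v n ∈ P) : L.FG := by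
  let φ : V →ₗ[ℤ] (Fin m → ℂ) :=
    (LinearMap.pi fun i : Fin m =>
      (LinearMap.proj (i : ℕ) : (ℕ → ℂ) →ₗ[ℂ] ℂ) ∘ₗ c).restrictScalars ℤ
  have hφ : Function.Injective φ := by
    rw [injective_iff_map_eq_zero]
    intro v hv
    apply hm
    intro n hn
    have := congrFun hv ⟨n, hn⟩
    simpa [φ] using this
  apply Submodule.fg_of_fg_map_injective φ hφ
  have hQ : (Submodule.pi Set.univ (fun _ : Fin m => P)).FG := Submodule.fg_pi (fun _ => hP)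
  refine hQ.of_le ?_
  rintro _ ⟨v, hv, rfl⟩ i _
  exact hL v hv i

/-- elements of a subring of `ℂ` which is finite over `ℤ` are algebraic integers. -/
theorem isIntegral_of_mem_finite (𝓞 : Subring ℂ) [Module.Finite ℤ 𝓞] {x : ℂ} (hx : x ∈ 𝓞) :
    IsIntegral ℤ x := by
  have h1 : IsIntegral ℤ (⟨x, hx⟩ : 𝓞) := IsIntegral.of_finite ℤ _
  exact h1.map (𝓞.subtype.toIntAlgHom)

/-- **DS4-ALG core** (Deligne–Serre 6.11 for nebentypus forms). -/
theorem exists_eigen_lift (M : ℕ) [NeZero M] (k : ℕ) (ψ : DirichletCharacter ℂ M)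
    (hH : HasHecke M k ψ) (𝓞 : Subring ℂ) [Module.Finite ℤ 𝓞] (hψ𝓞 : ∀ x, ψ x ∈ 𝓞)
    (𝔪 : Ideal Zbar) [𝔪.IsPrime]
    (f : CuspForm (Gamma1 M) k) (hfneb : IsNeben k ψ f) (hf𝓞 : ∀ n, qCoeff f n ∈ 𝓞)
    (hf1 : ∃ (n : ℕ) (c : Zbar), (c : ℂ) = qCoeff f n ∧ c ∉ 𝔪)
    (a : ℕ → Zbar)
    (hcong : ∀ p : ℕ, p.Prime → ¬ p ∣ M → ∀ n : ℕ, ∃ c : Zbar, c ∈ 𝔪 ∧
      (c : ℂ) = qCoeff f (p * n) +
        ψ (p : ZMod M) * (p : ℂ) ^ (k - 1) * (if p ∣ n then qCoeff f (n / p) else 0) -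
        (a p : ℂ) * qCoeff f n) :
    ∃ (v : CuspForm (Gamma1 M) k) (b : ℕ → Zbar), v ≠ 0 ∧ IsNeben k ψ v ∧
      HeckeRel M k ψ (fun n => qCoeff v n) (fun n => (b n : ℂ)) ∧
      ∀ p : ℕ, p.Prime → ¬ p ∣ M → b p - a p ∈ 𝔪 := by
  classical
  have := finiteDimensional_cuspForm_Gamma1 M (k : ℤ)
  -- the space and its coefficient map
  let c : nebenSpace M (k : ℤ) ψ →ₗ[ℂ] (ℕ → ℂ) :=
    coeffMap M (k : ℤ) ∘ₗ (nebenSpace M (k : ℤ) ψ).subtype
  have hc : Function.Injective c :=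
    (coeffMap_injective M (k : ℤ)).comp Subtype.coe_injective
  have hcapp : ∀ (v : nebenSpace M (k : ℤ) ψ) (n : ℕ), c v n = qCoeff (v : CuspForm (Gamma1 M) k) n :=
    fun _ _ => rfl
  -- the operators
  let ι : Type := {p : ℕ // p.Prime ∧ ¬ p ∣ M}
  let w : ι → ℂ := fun i => ψ ((i.1 : ℕ) : ZMod M) * ((i.1 : ℕ) : ℂ) ^ (k - 1)
  have hwint : ∀ i : ι, IsIntegral ℤ (w i) := fun i =>
    (isIntegral_of_mem_finite 𝓞 (hψ𝓞 _)).mul ((isIntegral_algebraMap (R := ℤ) (A := ℂ)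
      (x := ((i.1 : ℕ) : ℤ))).pow _ |> fun h => by simpa using h)
  have hw𝓞 : ∀ i : ι, w i ∈ 𝓞 := fun i =>
    𝓞.mul_mem (hψ𝓞 _) (𝓞.pow_mem (natCast_mem 𝓞 _) _)
  have hT : ∀ i : ι, ∃ T : Module.End ℂ (nebenSpace M (k : ℤ) ψ),
      ∀ v, c (T v) = heckeSeq (w i) i.1 (c v) := fun i =>
    exists_end_of_formal c hc _ (fun v => by
      obtain ⟨h', hh', hq⟩ := hH i.1 i.2.1 i.2.2 v.1 v.2
      refine ⟨⟨h', hh'⟩, funext fun n => ?_⟩
      rw [hcapp, heckeSeq_apply, hcapp, hcapp]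
      exact hq n)
  choose T hTc using hT
  have hcomm : ∀ i j, Commute (T i) (T j) := by
    intro i j
    by_cases hij : i = j
    · subst hij
      exact Commute.refl _
    · have hne : (i.1 : ℕ) ≠ j.1 := fun h => hij (Subtype.ext h)
      show T i * T j = T j * T i
      refine LinearMap.ext fun v => hc ?_
      rw [Module.End.mul_apply, Module.End.mul_apply, hTc, hTc, hTc, hTc]
      exact heckeSeq_comm (w i) (w j) i.2.1 j.2.1 hne (c v)
  -- the lattice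
  let L : Submodule ℤ (nebenSpace M (k : ℤ) ψ) :=
    { carrier := {v | ∀ n, c v n ∈ 𝓞}
      zero_mem' := fun n => by
        rw [map_zero]
        exact 𝓞.zero_mem
      add_mem' := fun {x y} hx hy n => by
        rw [map_add]
        exact 𝓞.add_mem (hx n) (hy n)
      smul_mem' := fun r x hx n => by
        rw [← Int.cast_smul_eq_zsmul ℂ, map_smul]
        exact 𝓞.mul_mem (intCast_mem 𝓞 r) (hx n) }
  have hLmem : ∀ v, v ∈ L ↔ ∀ n, c v n ∈ 𝓞 := fun _ => Iff.rfl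
  have hLfg : L.FG := by
    have hP : (𝓞.toAddSubgroup.toIntSubmodule).FG := by
      have h1 : (⊤ : Submodule ℤ 𝓞).FG := Module.Finite.fg_top
      have h2 := h1.map ((𝓞.subtype : 𝓞 →+* ℂ).toAddMonoidHom.toIntLinearMap)
      convert h2 using 1
      ext x
      constructor
      · intro hx
        exact ⟨⟨x, hx⟩, Submodule.mem_top, rfl⟩
      · rintro ⟨y, -, rfl⟩
        exact y.2
    refine fg_of_coeff_mem c (sturm M (k : ℤ) + 1) (fun v hv => ?_) _ hP L (fun v hv n => hv n)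
    apply Subtype.ext
    apply eq_zero_of_qCoeff_le_sturm
    intro n hn
    exact hv n (Nat.lt_succ_of_le hn)
  have hLT : ∀ i, ∀ x ∈ L, T i x ∈ L := by
    intro i x hx n
    rw [hTc, heckeSeq_apply]
    refine 𝓞.add_mem (hx _) (𝓞.mul_mem (hw𝓞 i) ?_)
    split_ifs
    · exact hx _
    · exact 𝓞.zero_mem
  -- the subgroup of forms which are zero modulo `𝔪`
  let B : AddSubgroup (nebenSpace M (k : ℤ) ψ) :=
    { carrier := {v | ∀ n, ∃ z : Zbar, z ∈ 𝔪 ∧ (z : ℂ) = c v n}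
      zero_mem' := fun n => ⟨0, 𝔪.zero_mem, by rw [map_zero]; rfl⟩
      add_mem' := fun {x y} hx hy n => by
        obtain ⟨z, hz, hzx⟩ := hx n
        obtain ⟨z', hz', hzy⟩ := hy n
        refine ⟨z + z', 𝔪.add_mem hz hz', ?_⟩
        rw [map_add, Pi.add_apply, ← hzx, ← hzy]
        rfl
      neg_mem' := fun {x} hx n => by
        obtain ⟨z, hz, hzx⟩ := hx n
        refine ⟨-z, 𝔪.neg_mem hz, ?_⟩
        rw [map_neg, Pi.neg_apply, ← hzx]
        rfl }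
  have hBmem : ∀ v, v ∈ B ↔ ∀ n, ∃ z : Zbar, z ∈ 𝔪 ∧ (z : ℂ) = c v n := fun _ => Iff.rfl
  have hB : ∀ (r : Zbar), ∀ z ∈ B, (r : ℂ) • z ∈ B := by
    intro r z hz n
    obtain ⟨y, hy, hyz⟩ := hz n
    refine ⟨r * y, 𝔪.mul_mem_left r hy, ?_⟩
    rw [map_smul, Pi.smul_apply, smul_eq_mul, ← hyz]
    rfl
  have hBT : ∀ i, ∀ z ∈ B, T i z ∈ B := by
    intro i z hz n
    rw [hTc, heckeSeq_apply]
    obtain ⟨y, hy, hyz⟩ := hz (i.1 * n)
    by_cases hd : (i.1 : ℕ) ∣ n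
    · obtain ⟨y', hy', hyz'⟩ := hz (n / i.1)
      refine ⟨y + ⟨w i, hwint i⟩ * y', 𝔪.add_mem hy (𝔪.mul_mem_left _ hy'), ?_⟩
      rw [if_pos hd, ← hyz, ← hyz']
      rfl
    · refine ⟨y, hy, ?_⟩
      rw [if_neg hd, mul_zero, add_zero, ← hyz]
  -- the mod `𝔪` eigenvector
  let f' : nebenSpace M (k : ℤ) ψ := ⟨f, hfneb⟩
  have hf'L : f' ∈ L := fun n => hf𝓞 n
  have hf' : ∀ r : Zbar, (r : ℂ) • f' ∈ B → r ∈ 𝔪 := by
    intro r hr
    obtain ⟨n, c₁, hc₁, hc₁𝔪⟩ := hf1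
    obtain ⟨z, hz, hzr⟩ := hr n
    rw [map_smul, Pi.smul_apply, smul_eq_mul] at hzr
    have h1 : z = r * c₁ := by
      apply Subtype.ext
      rw [hzr]
      show (r : ℂ) * qCoeff f n = ((r * c₁ : Zbar) : ℂ)
      rw [← hc₁]
      rfl
    rw [h1] at hz
    rcases Ideal.IsPrime.mem_or_mem inferInstance hz with h | h
    · exact h
    · exact absurd h hc₁𝔪
  let a' : ι → Zbar := fun i => a i.1
  have ha' : ∀ i, T i f' - (a' i : ℂ) • f' ∈ B := by
    intro i n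
    obtain ⟨z, hz, hzc⟩ := hcong i.1 i.2.1 i.2.2 n
    refine ⟨z, hz, ?_⟩
    rw [hzc, map_sub, Pi.sub_apply, hTc, heckeSeq_apply, map_smul, Pi.smul_apply, smul_eq_mul]
    rfl
  obtain ⟨v, lam, hv0, hv, hlam⟩ := deligneSerre_lattice T hcomm L hLfg hLT 𝔪 inferInstance B hB hBT
    f' hf'L hf' a' ha'
  refine ⟨v.1, fun n => if h : n.Prime ∧ ¬ n ∣ M then lam ⟨n, h⟩ else 0,
    fun h => hv0 (Subtype.ext h), v.2, ?_, ?_⟩
  · intro p hp hpM n
    have h1 := congrFun (congrArg c (hv ⟨p, hp, hpM⟩)) n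
    rw [hTc, heckeSeq_apply, map_smul, Pi.smul_apply, smul_eq_mul] at h1
    beta_reduce
    rw [dif_pos (⟨hp, hpM⟩ : p.Prime ∧ ¬ p ∣ M)]
    exact h1
  · intro p hp hpM
    beta_reduce
    rw [dif_pos (⟨hp, hpM⟩ : p.Prime ∧ ¬ p ∣ M)]
    exact hlam ⟨p, hp, hpM⟩

end Fermat.Agent.DS.DS4
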