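/-
PROGRAMME III (S48, Deligne–Serre), kernel DS4-ALG (helper28), part 4: from weight one to weight
two (`exists_weightTwo_system`).

`g` a weight-one form on `Γ₁(N)` with nebentypus `ε`, `a_1 = 1`, the frozen Hecke recursion with
eigenvalues `a p ∈ ℤ̄`, coefficients with bounded denominator `D ∉ 𝔪` in a subring `𝓞` finite over
`ℤ`; `E` a weight-one form on `Γ₁(ℓ)` with nebentypus `χ`, `E ≡ 1` modulo `𝔪`, `n χ(n) ≡ 1` modulo
`𝔪`.  Then `f := D • (g E)` is a cusp form of weight two on `Γ₁(N ℓ)` with nebentypus `ψ = ε χ`,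
`f ≡ D g` modulo `𝔪`, an eigenvector modulo `𝔪` of the weight-two operators `T_p`, `p ∤ N ℓ`, with
eigenvalues `a p`; `exists_eigen_lift` lifts it.
-/
import Fermat.Agent.DS.DS4.EigenLift

set_option autoImplicit false

open scoped MatrixGroups ModularForm
open CongruenceSubgroup UpperHalfPlane ModularFormClass

namespace Fermat.Agent.DS.DS4

local notation "Zbar" => integralClosure ℤ ℂ

/-! ### Levels -/

theorem intCast_zmod_eq_of_dvd {d m : ℕ} (h : d ∣ m) {x y : ℤ}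
    (hxy : (x : ZMod m) = (y : ZMod m)) : (x : ZMod d) = (y : ZMod d) := by
  rw [ZMod.intCast_eq_intCast_iff_dvd_sub] at hxy ⊢
  exact dvd_trans (Int.natCast_dvd_natCast.mpr h) hxy

theorem Gamma1_le_of_dvd {d m : ℕ} (h : d ∣ m) : Gamma1 m ≤ Gamma1 d := by
  intro A hA
  rw [Gamma1_mem] at hA ⊢
  refine ⟨?_, ?_, ?_⟩
  · have := intCast_zmod_eq_of_dvd h (x := A 0 0) (y := 1) (by simpa using hA.1)
    simpa using this
  · have := intCast_zmod_eq_of_dvd h (x := A 1 1) (y := 1) (by simpa using hA.2.1)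
    simpa using this
  · have := intCast_zmod_eq_of_dvd h (x := A 1 0) (y := 0) (by simpa using hA.2.2)
    simpa using this

theorem Gamma0_le_of_dvd {d m : ℕ} (h : d ∣ m) : Gamma0 m ≤ Gamma0 d := by
  intro A hA
  rw [Gamma0_mem] at hA ⊢
  have := intCast_zmod_eq_of_dvd h (x := A 1 0) (y := 0) (by simpa using hA)
  simpa using this

/-- restriction of a cusp form to a smaller group. -/
noncomputable def restrictCusp {𝒢 ℋ : Subgroup (GL (Fin 2) ℝ)} (h : 𝒢 ≤ ℋ) {w : ℤ}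
    (F : CuspForm ℋ w) : CuspForm 𝒢 w where
  toFun := F
  slash_action_eq' γ hγ := F.slash_action_eq' γ (h hγ)
  holo' := F.holo'
  zero_at_cusps' hc := F.zero_at_cusps' (hc.mono h)

@[simp] theorem coe_restrictCusp {𝒢 ℋ : Subgroup (GL (Fin 2) ℝ)} (h : 𝒢 ≤ ℋ) {w : ℤ}
    (F : CuspForm ℋ w) : (⇑(restrictCusp h F) : ℍ → ℂ) = ⇑F := rfl

/-- restriction of a modular form to a smaller group. -/
noncomputable def restrictMod {𝒢 ℋ : Subgroup (GL (Fin 2) ℝ)} (h : 𝒢 ≤ ℋ) {w : ℤ}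
    (F : ModularForm ℋ w) : ModularForm 𝒢 w where
  toFun := F
  slash_action_eq' γ hγ := F.slash_action_eq' γ (h hγ)
  holo' := F.holo'
  bdd_at_cusps' hc := F.bdd_at_cusps' (hc.mono h)

@[simp] theorem coe_restrictMod {𝒢 ℋ : Subgroup (GL (Fin 2) ℝ)} (h : 𝒢 ≤ ℋ) {w : ℤ}
    (F : ModularForm ℋ w) : (⇑(restrictMod h F) : ℍ → ℂ) = ⇑F := rfl

/-! ### The image of an ideal of `ℤ̄` in `ℂ` -/

/-- the image of an ideal of `ℤ̄` in `ℂ`, as a `ℤ̄`-submodule. -/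
def idealImage (𝔪 : Ideal Zbar) : Submodule Zbar ℂ :=
  Submodule.map (Algebra.linearMap Zbar ℂ) 𝔪

theorem mem_idealImage {𝔪 : Ideal Zbar} {x : ℂ} :
    x ∈ idealImage 𝔪 ↔ ∃ z : Zbar, z ∈ 𝔪 ∧ (z : ℂ) = x := by
  unfold idealImage
  rw [Submodule.mem_map]
  rfl

theorem mul_mem_idealImage {𝔪 : Ideal Zbar} {x y : ℂ} (hy : IsIntegral ℤ y)
    (hx : x ∈ idealImage 𝔪) : y * x ∈ idealImage 𝔪 := by
  have := (idealImage 𝔪).smul_mem (⟨y, hy⟩ : Zbar) hx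
  rwa [Algebra.smul_def] at this

theorem mul_mem_idealImage' {𝔪 : Ideal Zbar} {x y : ℂ} (hy : IsIntegral ℤ y)
    (hx : x ∈ idealImage 𝔪) : x * y ∈ idealImage 𝔪 := by
  rw [mul_comm]
  exact mul_mem_idealImage hy hx

/-! ### The theorem -/

/-- **DS4-ALG** (weight one to weight two). -/
theorem exists_weightTwo_system
    (N : ℕ) [NeZero N] (ε : DirichletCharacter ℂ N) (g : CuspForm (Gamma1 N) 1)
    (hg1 : qCoeff g 1 = 1) (hgneb : IsNeben 1 ε g) (a : ℕ → Zbar)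
    (hgT : ∀ p : ℕ, p.Prime → ¬ p ∣ N → ∀ n : ℕ,
      qCoeff g (p * n) + ε (p : ZMod N) * (if p ∣ n then qCoeff g (n / p) else 0) =
        (a p : ℂ) * qCoeff g n)
    (ℓ : ℕ) [Fact ℓ.Prime] (𝔪 : Ideal Zbar) [𝔪.IsPrime]
    (𝓞 : Subring ℂ) [Module.Finite ℤ 𝓞] (D : ℤ) (hD : (D : Zbar) ∉ 𝔪)
    (hg𝓞 : ∀ n, (D : ℂ) * qCoeff g n ∈ 𝓞) (hε𝓞 : ∀ x, ε x ∈ 𝓞)
    (χ : DirichletCharacter ℂ ℓ) (hχ𝓞 : ∀ x, χ x ∈ 𝓞)
    (hχ : ∀ n : ℕ, ¬ ℓ ∣ n → ∃ z : Zbar, (z : ℂ) = χ (n : ZMod ℓ) ∧ z * (n : Zbar) - 1 ∈ 𝔪)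
    (E : ModularForm (Gamma1 ℓ) 1) (hEneb : IsNeben 1 χ E) (hE𝓞 : ∀ n, qCoeff E n ∈ 𝓞)
    (hE0 : ∃ c₀ : Zbar, (c₀ : ℂ) = qCoeff E 0 ∧ c₀ - 1 ∈ 𝔪)
    (hEn : ∀ n, 0 < n → ∃ c : Zbar, (c : ℂ) = qCoeff E n ∧ c ∈ 𝔪)
    (ψ : DirichletCharacter ℂ (N * ℓ))
    (hψ : ∀ x : ZMod (N * ℓ), ψ x =
      ε (ZMod.castHom (Dvd.intro ℓ rfl) (ZMod N) x) *
      χ (ZMod.castHom (Dvd.intro_left N rfl) (ZMod ℓ) x))
    (hH : HasHecke (N * ℓ) 2 ψ) :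
    ∃ (v : CuspForm (Gamma1 (N * ℓ)) 2) (b : ℕ → Zbar), v ≠ 0 ∧ IsNeben 2 ψ v ∧
      HeckeRel (N * ℓ) 2 ψ (fun n => qCoeff v n) (fun n => (b n : ℂ)) ∧
      ∀ p : ℕ, p.Prime → ¬ p ∣ N * ℓ → b p - a p ∈ 𝔪 := by
  classical
  have hℓ : ℓ.Prime := Fact.out
  have : NeZero ℓ := ⟨hℓ.ne_zero⟩
  have : NeZero (N * ℓ) := ⟨Nat.mul_ne_zero (NeZero.ne N) hℓ.ne_zero⟩
  have hdN : N ∣ N * ℓ := Dvd.intro ℓ rfl
  have hdℓ : ℓ ∣ N * ℓ := Dvd.intro_left N rfl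
  have hΓN : (Gamma1 (N * ℓ) : Subgroup (GL (Fin 2) ℝ)) ≤ Gamma1 N :=
    Subgroup.map_mono (Gamma1_le_of_dvd hdN)
  have hΓℓ : (Gamma1 (N * ℓ) : Subgroup (GL (Fin 2) ℝ)) ≤ Gamma1 ℓ :=
    Subgroup.map_mono (Gamma1_le_of_dvd hdℓ)
  -- the product
  let f₀ : CuspForm (Gamma1 (N * ℓ)) 2 :=
    CuspForm.mcast (by norm_num : (1 : ℤ) + 1 = 2)
      ((restrictCusp hΓN g).mulModularForm (restrictMod hΓℓ E))
  have hf₀coe : (⇑f₀ : ℍ → ℂ) = ⇑g * ⇑E := rfl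
  let f : CuspForm (Gamma1 (N * ℓ)) 2 := (D : ℂ) • f₀
  have hfcoe : (⇑f : ℍ → ℂ) = (D : ℂ) • (⇑g * ⇑E) := rfl
  -- its `q`-expansion
  have hng := isNice_Gamma1 g
  have hnE := isNice_Gamma1 E
  have hqf : ∀ n, qCoeff f n =
      ∑ ij ∈ Finset.HasAntidiagonal.antidiagonal n, ((D : ℂ) * qCoeff g ij.1) * qCoeff E ij.2 := by
    intro n
    unfold qCoeff
    rw [hfcoe, (hng.mul hnE).qExpansion_smul, hng.qExpansion_mul hnE, PowerSeries.coeff_smul,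
      PowerSeries.coeff_mul, smul_eq_mul, Finset.mul_sum]
    exact Finset.sum_congr rfl fun ij _ => by ring
  -- integrality
  have hint : ∀ {x : ℂ}, x ∈ 𝓞 → IsIntegral ℤ x := fun hx => isIntegral_of_mem_finite 𝓞 hx
  have hf𝓞 : ∀ n, qCoeff f n ∈ 𝓞 := by
    intro n
    rw [hqf]
    exact 𝓞.sum_mem fun ij _ => 𝓞.mul_mem (hg𝓞 _) (hE𝓞 _)
  -- `f ≡ D g` modulo `𝔪`
  have hδ : ∀ n, qCoeff f n - (D : ℂ) * qCoeff g n ∈ idealImage 𝔪 := by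
    intro n
    obtain ⟨c₀, hc₀, hc₀𝔪⟩ := hE0
    have h1 : qCoeff f n - (D : ℂ) * qCoeff g n =
        ∑ ij ∈ Finset.HasAntidiagonal.antidiagonal n, ((D : ℂ) * qCoeff g ij.1) *
          (qCoeff E ij.2 - if ij.2 = 0 then 1 else 0) := by
      rw [hqf]
      have h2 : (D : ℂ) * qCoeff g n =
          ∑ ij ∈ Finset.HasAntidiagonal.antidiagonal n, ((D : ℂ) * qCoeff g ij.1) *
            (if ij.2 = 0 then 1 else 0) := by
        rw [Finset.sum_eq_single (n, 0)]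
        · simp
        · rintro ⟨i, j⟩ hij hne
          have hj : j ≠ 0 := by
            rintro rfl
            apply hne
            rw [Finset.HasAntidiagonal.mem_antidiagonal] at hij
            simp only [add_zero] at hij
            rw [hij]
          simp [hj]
        · intro h
          exact absurd (Finset.HasAntidiagonal.mem_antidiagonal.mpr (by simp)) h
      rw [h2, ← Finset.sum_sub_distrib]
      exact Finset.sum_congr rfl fun ij _ => by ring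
    rw [h1]
    refine Submodule.sum_mem _ fun ij _ => ?_
    refine mul_mem_idealImage (hint (hg𝓞 _)) ?_
    by_cases hj : ij.2 = 0
    · rw [if_pos hj, hj]
      exact mem_idealImage.mpr ⟨c₀ - 1, hc₀𝔪, by rw [← hc₀]; rfl⟩
    · rw [if_neg hj, sub_zero]
      obtain ⟨c, hc, hc𝔪⟩ := hEn ij.2 (Nat.pos_of_ne_zero hj)
      exact mem_idealImage.mpr ⟨c, hc𝔪, hc⟩
  -- nebentypus of `f`
  have hfneb : IsNeben 2 ψ f := by
    intro γ hγ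
    have hγN : γ ∈ Gamma0 N := Gamma0_le_of_dvd hdN hγ
    have hγℓ : γ ∈ Gamma0 ℓ := Gamma0_le_of_dvd hdℓ hγ
    rw [hfcoe, ModularForm.SL_smul_slash]
    have e1 : (⇑g * ⇑E) ∣[(2 : ℤ)] γ = (⇑g ∣[(1 : ℤ)] γ) * (⇑E ∣[(1 : ℤ)] γ) := by
      have := ModularForm.mul_slash_SL2 1 1 γ (⇑g) (⇑E)
      rwa [show (1 : ℤ) + 1 = 2 by norm_num] at this
    have e2 : ψ ((γ 1 1 : ℤ) : ZMod (N * ℓ)) =
        ε ((γ 1 1 : ℤ) : ZMod N) * χ ((γ 1 1 : ℤ) : ZMod ℓ) := by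
      rw [hψ, map_intCast (ZMod.castHom hdN (ZMod N)) (γ 1 1),
        map_intCast (ZMod.castHom hdℓ (ZMod ℓ)) (γ 1 1)]
    rw [e1, hgneb γ hγN, hEneb γ hγℓ, e2]
    ext τ
    simp only [Pi.smul_apply, Pi.mul_apply, smul_eq_mul]
    ring
  -- `f` is nonzero modulo `𝔪`
  have hf1 : ∃ (n : ℕ) (c : Zbar), (c : ℂ) = qCoeff f n ∧ c ∉ 𝔪 := by
    refine ⟨1, ⟨qCoeff f 1, hint (hf𝓞 1)⟩, rfl, fun hmem => ?_⟩
    obtain ⟨z, hz, hzc⟩ := mem_idealImage.mp (hδ 1)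
    rw [hg1, mul_one] at hzc
    have h1 : (D : Zbar) = (⟨qCoeff f 1, hint (hf𝓞 1)⟩ : Zbar) - z := by
      apply Subtype.ext
      show ((D : Zbar) : ℂ) = qCoeff f 1 - (z : ℂ)
      rw [hzc]
      simp
    exact hD (h1 ▸ 𝔪.sub_mem hmem hz)
  -- the congruences
  have hcong : ∀ p : ℕ, p.Prime → ¬ p ∣ N * ℓ → ∀ n : ℕ, ∃ c : Zbar, c ∈ 𝔪 ∧
      (c : ℂ) = qCoeff f (p * n) +
        ψ (p : ZMod (N * ℓ)) * (p : ℂ) ^ (2 - 1) * (if p ∣ n then qCoeff f (n / p) else 0) -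
        (a p : ℂ) * qCoeff f n := by
    intro p hp hpM n
    have hpN : ¬ p ∣ N := fun h => hpM (Dvd.dvd.mul_right h ℓ)
    have hpℓ : ¬ ℓ ∣ p := fun h => hpM (by
      rw [(Nat.prime_dvd_prime_iff_eq hℓ hp).mp h]
      exact Dvd.intro_left N rfl)
    obtain ⟨z, hz, hz𝔪⟩ := hχ p hpℓ
    have hμ : χ (p : ZMod ℓ) * (p : ℂ) - 1 ∈ idealImage 𝔪 :=
      mem_idealImage.mpr ⟨z * (p : Zbar) - 1, hz𝔪, by rw [← hz]; simp⟩
    have hψp : ψ (p : ZMod (N * ℓ)) = ε (p : ZMod N) * χ (p : ZMod ℓ) := by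
      rw [hψ, map_natCast (ZMod.castHom hdN (ZMod N)) p,
        map_natCast (ZMod.castHom hdℓ (ZMod ℓ)) p]
    have h21 : (2 : ℕ) - 1 = 1 := rfl
    have hrel := hgT p hp hpN n
    have key : qCoeff f (p * n) +
        ψ (p : ZMod (N * ℓ)) * (p : ℂ) ^ (2 - 1) * (if p ∣ n then qCoeff f (n / p) else 0) -
        (a p : ℂ) * qCoeff f n =
        (qCoeff f (p * n) - (D : ℂ) * qCoeff g (p * n)) +
        ε (p : ZMod N) * (if p ∣ n then qCoeff f (n / p) - (D : ℂ) * qCoeff g (n / p) else 0) +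
        (ε (p : ZMod N) * (if p ∣ n then qCoeff f (n / p) else 0)) *
          (χ (p : ZMod ℓ) * (p : ℂ) - 1) -
        (a p : ℂ) * (qCoeff f n - (D : ℂ) * qCoeff g n) := by
      rw [h21, pow_one, hψp]
      have : (D : ℂ) * (qCoeff g (p * n) +
          ε (p : ZMod N) * (if p ∣ n then qCoeff g (n / p) else 0)) =
          (D : ℂ) * ((a p : ℂ) * qCoeff g n) := by rw [hrel]
      split_ifs at this ⊢ <;> linear_combination this
    apply mem_idealImage.mp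
    rw [key]
    refine Submodule.sub_mem _ (Submodule.add_mem _ (Submodule.add_mem _ (hδ _) ?_) ?_) ?_
    · refine mul_mem_idealImage (hint (hε𝓞 _)) ?_
      split_ifs
      · exact hδ _
      · exact Submodule.zero_mem _
    · refine mul_mem_idealImage ?_ hμ
      refine (hint (hε𝓞 _)).mul ?_
      split_ifs
      · exact hint (hf𝓞 _)
      · exact isIntegral_zero
    · exact mul_mem_idealImage (a p).2 (hδ _)
  have hψ𝓞 : ∀ x, ψ x ∈ 𝓞 := fun x => by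
    rw [hψ]
    exact 𝓞.mul_mem (hε𝓞 _) (hχ𝓞 _)
  exact exists_eigen_lift (N * ℓ) 2 ψ hH 𝓞 hψ𝓞 𝔪 f hfneb hf𝓞 hf1 a hcong

end Fermat.Agent.DS.DS4
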