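/-
PROGRAMME III (S48, Deligne–Serre), kernel DS4 (helper28), leaf DS4-SS: a semisimple `GL₂`-model of
a two-dimensional representation.

For a representation `r : G →* End_k(V)`, `dim V = 2`, there is `ρ' : G →* GL₂(k)` which is either
irreducible or diagonal, with the same characteristic polynomials and `ker r ≤ ker ρ'`
(if `V` has an invariant line, `ρ' = diag(α, δ)` in an adapted basis; otherwise `ρ'` is `r` in any
basis).  `exists_semisimple_model` is the version for `ResidualGaloisRep` (the shape of the
skeleton's `IsModLRep.semisimple`).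
-/
import Mathlib
import Fermat.Prelude.Def_GaloisRep_Residual
import Fermat.Prelude.Def_Deformations_MatrixRepresentation

set_option autoImplicit false

open Module Polynomial

namespace Fermat.Agent.DS.DS4

local notation "Γℚ" => (AlgebraicClosure ℚ ≃ₐ[ℚ] AlgebraicClosure ℚ)

section Model

variable {G : Type} [Group G] {k : Type} [Field k] {V : Type} [AddCommGroup V] [Module k V]
  [Module.Finite k V]

omit [Module.Finite k V] in
/-- the matrix model of a representation in a basis. -/
noncomputable def matModel (b : Basis (Fin 2) k V) (r : G →* Module.End k V) :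
    G →* GL (Fin 2) k :=
  MonoidHom.toHomUnits ((MonoidHomClass.toMonoidHom (LinearMap.toMatrixAlgEquiv b)).comp r)

omit [Module.Finite k V] in
theorem matModel_val (b : Basis (Fin 2) k V) (r : G →* Module.End k V) (g : G) :
    ((matModel b r g : GL (Fin 2) k) : Matrix (Fin 2) (Fin 2) k) = LinearMap.toMatrix b b (r g) :=
  rfl

theorem matModel_charpoly (b : Basis (Fin 2) k V) (r : G →* Module.End k V) (g : G) :
    ((matModel b r g : GL (Fin 2) k) : Matrix (Fin 2) (Fin 2) k).charpoly =
      LinearMap.charpoly (r g) := by
  rw [matModel_val, LinearMap.charpoly_toMatrix]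

omit [Module.Finite k V] in
theorem matModel_eq_one (b : Basis (Fin 2) k V) (r : G →* Module.End k V) {g : G}
    (h : r g = 1) : matModel b r g = 1 := by
  apply Units.ext
  rw [matModel_val, h]
  exact LinearMap.toMatrix_one b

omit [Module.Finite k V] in
/-- the case without invariant line: the matrix model is irreducible. -/
theorem isIrreducible_matModel (b : Basis (Fin 2) k V)
    (r : G →* Module.End k V)
    (hline : ∀ w : V, w ≠ 0 → ¬ ∀ g, ∃ c : k, r g w = c • w) :
    (Deformation.matrixRepresentation (matModel b r)).IsIrreducible := by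
  have hfr : finrank k (Fin 2 → k) = 2 := by simp
  refine { exists_pair_ne := ⟨⊥, ⊤, fun h => ?_⟩, eq_bot_or_eq_top := fun S => ?_ }
  · have h1 := congrArg Subrepresentation.toSubmodule h
    have h2 : (⊥ : Submodule k (Fin 2 → k)) = ⊤ := h1
    have h3 := congrArg (fun W : Submodule k (Fin 2 → k) => finrank k W) h2
    simp at h3
  · have hle : finrank k S.toSubmodule ≤ 2 := (Submodule.finrank_le _).trans_eq hfr
    have hcases : finrank k S.toSubmodule = 0 ∨ finrank k S.toSubmodule = 1 ∨
        finrank k S.toSubmodule = 2 := by omega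
    rcases hcases with h0 | h1 | h2
    · left
      apply Subrepresentation.toSubmodule_injective
      exact Submodule.finrank_eq_zero.mp h0
    · exfalso
      obtain ⟨⟨x, hxW⟩, hx0, hspan⟩ := finrank_eq_one_iff'.mp h1
      have hx0' : x ≠ 0 := fun h => hx0 (Subtype.ext h)
      -- the corresponding vector of `V`
      set w : V := b.equivFun.symm x with hw
      have hwrepr : (b.repr w : Fin 2 → k) = x := by
        have := b.equivFun.apply_symm_apply x
        rw [← hw] at this
        exact this
      have hw0 : w ≠ 0 := by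
        intro h
        apply hx0'
        rw [← hwrepr, h]
        simp
      apply hline w hw0
      intro g
      have hmem := S.apply_mem_toSubmodule g hxW
      obtain ⟨c, hc⟩ := hspan ⟨_, hmem⟩
      have hc' : c • x = ((matModel b r g : GL (Fin 2) k) : Matrix (Fin 2) (Fin 2) k).mulVec x := by
        have := congrArg Subtype.val hc
        simpa [Deformation.matrixRepresentation_apply] using this
      refine ⟨c, ?_⟩
      apply b.repr.injective
      apply DFunLike.coe_injective
      have h4 := LinearMap.toMatrix_mulVec_repr b b (r g) w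
      rw [hwrepr] at h4
      rw [← h4, map_smul, Finsupp.coe_smul, hwrepr, ← matModel_val, hc']
    · right
      apply Subrepresentation.toSubmodule_injective
      exact Submodule.eq_top_of_finrank_eq (h2.trans hfr.symm)

omit [Module.Finite k V] in
/-- a basis adapted to a nonzero vector. -/
theorem exists_basis_zero_eq (hV : finrank k V = 2) (w : V) (hw : w ≠ 0) :
    ∃ b : Basis (Fin 2) k V, b 0 = w := by
  have hex : ∃ u : V, u ∉ Submodule.span k {w} := by
    by_contra hcon
    push Not at hcon
    have htop : Submodule.span k {w} = ⊤ := by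
      rw [eq_top_iff]
      exact fun u _ => hcon u
    have h1 : finrank k (Submodule.span k {w}) = 1 := finrank_span_singleton hw
    rw [htop, finrank_top, hV] at h1
    omega
  obtain ⟨u, hu⟩ := hex
  have hli : LinearIndependent k ![w, u] := by
    rw [LinearIndependent.pair_iff' hw]
    intro a ha
    apply hu
    rw [← ha]
    exact Submodule.smul_mem _ _ (Submodule.mem_span_singleton_self w)
  refine ⟨basisOfLinearIndependentOfCardEqFinrank hli (by simp [hV]), ?_⟩
  rw [coe_basisOfLinearIndependentOfCardEqFinrank]
  rfl

/-- **DS4-SS**, general form. -/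
theorem exists_semisimple_matModel (hV : finrank k V = 2) (r : G →* Module.End k V) :
    ∃ ρ' : G →* GL (Fin 2) k,
      ((Deformation.matrixRepresentation ρ').IsIrreducible ∨
        ∃ P : GL (Fin 2) k, ∀ g : G,
          ((P * ρ' g * P⁻¹ : GL (Fin 2) k) : Matrix (Fin 2) (Fin 2) k).IsDiag) ∧
      (∀ g : G, r g = 1 → ρ' g = 1) ∧
      ∀ g : G, ((ρ' g : GL (Fin 2) k) : Matrix (Fin 2) (Fin 2) k).charpoly =
        LinearMap.charpoly (r g) := by
  classical
  by_cases hline : ∀ w : V, w ≠ 0 → ¬ ∀ g, ∃ c : k, r g w = c • w
  · -- irreducible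
    let b : Basis (Fin 2) k V := Module.finBasisOfFinrankEq k V hV
    exact ⟨matModel b r, Or.inl (isIrreducible_matModel b r hline),
      fun g hg => matModel_eq_one b r hg, matModel_charpoly b r⟩
  · -- an invariant line
    push Not at hline
    obtain ⟨w, hw0, hw⟩ := hline
    obtain ⟨b, hb⟩ := exists_basis_zero_eq hV w hw0
    let M : G → Matrix (Fin 2) (Fin 2) k := fun g => LinearMap.toMatrix b b (r g)
    have hM10 : ∀ g, M g 1 0 = 0 := by
      intro g
      obtain ⟨c, hc⟩ := hw g
      show LinearMap.toMatrix b b (r g) 1 0 = 0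
      rw [LinearMap.toMatrix_apply, hb, hc, map_smul, ← hb, Basis.repr_self]
      simp
    have hMmul : ∀ g h, M (g * h) = M g * M h := fun g h => by
      show LinearMap.toMatrix b b (r (g * h)) = _
      rw [map_mul]
      exact LinearMap.toMatrix_mul b (r g) (r h)
    have hMone : M 1 = 1 := by
      show LinearMap.toMatrix b b (r 1) = 1
      rw [map_one]
      exact LinearMap.toMatrix_one b
    let Dm : G →* Matrix (Fin 2) (Fin 2) k :=
      { toFun := fun g => Matrix.diagonal ![M g 0 0, M g 1 1]
        map_one' := by
          rw [hMone]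
          ext i j
          fin_cases i <;> fin_cases j <;> simp
        map_mul' := fun g h => by
          rw [Matrix.diagonal_mul_diagonal, hMmul]
          congr 1
          funext i
          fin_cases i
          · simp [Matrix.mul_apply, Fin.sum_univ_two, hM10 h]
          · simp [Matrix.mul_apply, Fin.sum_univ_two, hM10 g] }
    refine ⟨MonoidHom.toHomUnits Dm, Or.inr ⟨1, fun g => ?_⟩, fun g hg => ?_, fun g => ?_⟩
    · have : ((1 * MonoidHom.toHomUnits Dm g * 1⁻¹ : GL (Fin 2) k) :
          Matrix (Fin 2) (Fin 2) k) = Matrix.diagonal ![M g 0 0, M g 1 1] := by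
        rw [one_mul, inv_one, mul_one]
        rfl
      rw [this]
      exact Matrix.isDiag_diagonal _
    · apply Units.ext
      show Matrix.diagonal ![M g 0 0, M g 1 1] = 1
      have : M g = 1 := by
        show LinearMap.toMatrix b b (r g) = 1
        rw [hg]
        exact LinearMap.toMatrix_one b
      rw [this]
      ext i j
      fin_cases i <;> fin_cases j <;> simp
    · show (Matrix.diagonal ![M g 0 0, M g 1 1]).charpoly = _
      rw [← LinearMap.charpoly_toMatrix (r g) b, Matrix.charpoly_fin_two, Matrix.charpoly_fin_two]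
      have h1 : (Matrix.diagonal ![M g 0 0, M g 1 1]).trace = (M g).trace := by
        rw [Matrix.trace_fin_two, Matrix.trace_fin_two]
        simp
      have h2 : (Matrix.diagonal ![M g 0 0, M g 1 1]).det = (M g).det := by
        rw [Matrix.det_fin_two, Matrix.det_fin_two, hM10 g]
        simp
      rw [h1, h2]

end Model

/-- **DS4-SS**: a semisimple `GL₂`-model of a residual Galois representation. -/
theorem exists_semisimple_model {k : Type} [Field k] (ρ : ResidualGaloisRep k) :
    ∃ ρ' : Γℚ →* GL (Fin 2) k, GaloisFactorsThroughFiniteLevel ρ' ∧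
      ((Deformation.matrixRepresentation ρ').IsIrreducible ∨
        ∃ P : GL (Fin 2) k, ∀ g : Γℚ,
          ((P * ρ' g * P⁻¹ : GL (Fin 2) k) : Matrix (Fin 2) (Fin 2) k).IsDiag) ∧
      (∀ σ : Γℚ, ρ.ρ σ = 1 → ρ' σ = 1) ∧
      ∀ σ : Γℚ, ((ρ' σ : GL (Fin 2) k) : Matrix (Fin 2) (Fin 2) k).charpoly =
        LinearMap.charpoly (ρ.ρ σ) := by
  obtain ⟨ρ', hss, hker, hcp⟩ := exists_semisimple_matModel ρ.finrank_eq ρ.ρ
  obtain ⟨L, hL, h1⟩ := ρ.factorsThroughFiniteLevel
  exact ⟨ρ', ⟨L, hL, fun σ hσ => hker σ (h1 σ hσ)⟩, hss, hker, hcp⟩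

end Fermat.Agent.DS.DS4
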