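/-
PROGRAMME III (S48, Deligne–Serre), kernel DS4 (helper28): the assembly.

From the named inputs
* `InRational`  (DS0 + DS1: a `K`-rational nebentypus eigenvector with bounded denominators),
* `InEisOne`    (E1, kernel KF: the weight-one Eisenstein series `E_{1,χ}` of prime level),
* `HasHecke`    (DS0b: Hecke operators on the nebentypus space in weight two),
* `X1Out`       (the port: mod-`ℓ` representations attached to weight-two nebentypus eigenvectors),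
and helper14's kernel KG (`DS/E1/Teichmuller.lean`, imported), the family of semisimple mod-`ℓ`
representations of the skeleton's kernel `DS4` (its body is the conclusion of `ds4_of_inputs`,
with `IsModLRep` unfolded into its three fields).
-/
import Fermat.Agent.DS.DS4.Product
import Fermat.Agent.DS.DS4.SS
import Fermat.Agent.DS.E1.Teichmuller
import Fermat.Prelude.Def_FLTPrelim_ModularRep

set_option autoImplicit false
set_option linter.style.haveILetI false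

open scoped MatrixGroups ModularForm
open CongruenceSubgroup UpperHalfPlane ModularFormClass Polynomial

namespace Fermat.Agent.DS.DS4

local notation "Zbar" => integralClosure ℤ ℂ
local notation "Γℚ" => (AlgebraicClosure ℚ ≃ₐ[ℚ] AlgebraicClosure ℚ)

/-! ### The named inputs -/

/-- NAMED INPUT (DS0 + DS1, helper2/helper22/helper25/helper20): for a form `f` satisfying the
frozen hypotheses, a number field `K`, a normalised eigenvector `g` with the same `a_p`, all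
coefficients in `K`, nebentypus `ε`, and a common denominator `D`. -/
def InRational : Prop :=
  ∀ (N : ℕ) [NeZero N] (ε : DirichletCharacter ℂ N) (f : CuspForm (Gamma1 N) 1),
    qCoeff f 1 = 1 →
    (∀ p : ℕ, p.Prime → ¬ p ∣ N → ∀ n : ℕ,
      qCoeff f (p * n) + ε (p : ZMod N) * (if p ∣ n then qCoeff f (n / p) else 0) =
        qCoeff f p * qCoeff f n) →
    ∃ (K : IntermediateField ℚ ℂ) (g : CuspForm (Gamma1 N) 1) (D : ℤ),
      FiniteDimensional ℚ K ∧ (∀ x : ZMod N, ε x ∈ K) ∧ qCoeff g 1 = 1 ∧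
      (∀ p : ℕ, p.Prime → ¬ p ∣ N → ∀ n : ℕ,
        qCoeff g (p * n) + ε (p : ZMod N) * (if p ∣ n then qCoeff g (n / p) else 0) =
          qCoeff g p * qCoeff g n) ∧
      IsNeben 1 ε g ∧ (∀ n, qCoeff g n ∈ K) ∧
      (∀ p : ℕ, p.Prime → ¬ p ∣ N → qCoeff g p = qCoeff f p) ∧
      D ≠ 0 ∧ ∀ n, IsIntegral ℤ ((D : ℂ) * qCoeff g n)

/-- NAMED INPUT (E1, kernel KF, helper18's `exists_eisOne` verbatim). -/
def InEisOne : Prop :=
  ∀ (ℓ : ℕ) [Fact ℓ.Prime] (χ : DirichletCharacter ℂ ℓ), χ.Odd →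
    ∃ E : ModularForm (Gamma1 ℓ) 1,
      (∀ γ ∈ Gamma0 ℓ, ⇑E ∣[(1 : ℤ)] γ = χ ((γ 1 1 : ℤ) : ZMod ℓ) • ⇑E) ∧
      qCoeff E 0 = -(1 / (2 * ℓ)) * ∑ b : ZMod ℓ, (b.val : ℂ) * χ b ∧
      ∀ n, 0 < n → qCoeff E n = ∑ d ∈ n.divisors, χ (d : ZMod ℓ)

/-- NAMED INPUT **X1-OUT** (the port; the `Γ₁`-analogue of the landed S29) for a NONZERO
nebentypus eigenvector of the `T_p`, `p ∤ M`, with eigenvalues `b p ∈ ℤ̄`, at levels `M ≥ 5`
(the residue characteristic `ℓ ≥ 5` MAY divide `M`: DS4 uses `M = N ℓ`). -/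
def X1Out : Prop :=
  ∀ (M : ℕ) [NeZero M], 5 ≤ M → ∀ (ψ : DirichletCharacter ℂ M) (v : CuspForm (Gamma1 M) 2)
    (b e : ℕ → Zbar), v ≠ 0 → IsNeben 2 ψ v → (∀ p : ℕ, (e p : ℂ) = ψ (p : ZMod M)) →
    HeckeRel M 2 ψ (fun n => qCoeff v n) (fun n => (b n : ℂ)) →
    ∀ (ℓ : ℕ), ℓ.Prime → 5 ≤ ℓ → ∀ (k : Type) [Field k] [CharP k ℓ] (φ : Zbar →+* k),
    ∃ ρ : ResidualGaloisRep k,
      (∀ p : ℕ, p.Prime → ¬ p ∣ M * ℓ → ρ.IsUnramifiedAt p) ∧
      ∀ p : ℕ, p.Prime → ¬ p ∣ M * ℓ →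
        ∀ A : ValuationSubring (AlgebraicClosure ℚ), A.LiesOverPrime p →
          ∀ σ : Γℚ, A.IsFrobeniusAt σ p →
            LinearMap.charpoly (ρ.ρ σ) = X ^ 2 - C (φ (b p)) * X + C (φ (e p) * (p : k))

/-! ### Auxiliary lemmas -/

/-- the integers of a number field inside `ℂ` form a subring which is finite over `ℤ`. -/
theorem exists_finite_subring (K : IntermediateField ℚ ℂ) [FiniteDimensional ℚ K] :
    ∃ 𝓞 : Subring ℂ, Module.Finite ℤ 𝓞 ∧ ∀ x ∈ K, IsIntegral ℤ x → x ∈ 𝓞 := by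
  haveI : NumberField K := ⟨⟩
  let φ : NumberField.RingOfIntegers K →+* ℂ :=
    (algebraMap K ℂ).comp (algebraMap (NumberField.RingOfIntegers K) K)
  refine ⟨φ.range, ?_, ?_⟩
  · exact Module.Finite.of_surjective (φ.rangeRestrict.toAddMonoidHom.toIntLinearMap)
      φ.rangeRestrict_surjective
  · intro x hx hint
    have h1 : IsIntegral ℤ (⟨x, hx⟩ : K) :=
      (isIntegral_algebraMap_iff (algebraMap K ℂ).injective).mp hint
    refine ⟨IsIntegralClosure.mk' (NumberField.RingOfIntegers K) (⟨x, hx⟩ : K) h1, ?_⟩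
    show algebraMap K ℂ (algebraMap (NumberField.RingOfIntegers K) K _) = x
    rw [IsIntegralClosure.algebraMap_mk']
    rfl

/-- an integer prime to `ℓ` is a unit modulo a maximal ideal above `ℓ`. -/
theorem intCast_notMem_of_not_dvd {ℓ : ℕ} (hℓ : ℓ.Prime) {𝔪 : Ideal Zbar}
    (h𝔪 : 𝔪.IsMaximal) (hℓ𝔪 : (ℓ : Zbar) ∈ 𝔪) {m : ℤ} (hm : ¬ (ℓ : ℤ) ∣ m) :
    ((m : ℤ) : Zbar) ∉ 𝔪 := by
  intro hmem
  have hcop : IsCoprime (ℓ : ℤ) m :=
    (Nat.prime_iff_prime_int.mp hℓ).irreducible.coprime_iff_not_dvd.mpr hm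
  obtain ⟨u, v, huv⟩ := hcop
  have e : (1 : Zbar) = (u : Zbar) * (ℓ : Zbar) + (v : Zbar) * ((m : ℤ) : Zbar) := by
    have := congrArg (Int.cast : ℤ → Zbar) huv
    push_cast at this
    exact this.symm
  exact h𝔪.ne_top ((Ideal.eq_top_iff_one _).mpr
    (e ▸ 𝔪.add_mem (𝔪.mul_mem_left _ hℓ𝔪) (𝔪.mul_mem_left _ hmem)))

/-- the product of the two characters at level `N ℓ`. -/
noncomputable def prodChar {N ℓ : ℕ} (ε : DirichletCharacter ℂ N) (χ : DirichletCharacter ℂ ℓ) :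
    DirichletCharacter ℂ (N * ℓ) :=
  DirichletCharacter.changeLevel (Dvd.intro ℓ rfl) ε *
    DirichletCharacter.changeLevel (Dvd.intro_left N rfl) χ

theorem prodChar_apply {N ℓ : ℕ} [NeZero N] [NeZero ℓ] (ε : DirichletCharacter ℂ N)
    (χ : DirichletCharacter ℂ ℓ) (x : ZMod (N * ℓ)) :
    prodChar ε χ x = ε (ZMod.castHom (Dvd.intro ℓ rfl) (ZMod N) x) *
      χ (ZMod.castHom (Dvd.intro_left N rfl) (ZMod ℓ) x) := by
  haveI : NeZero (N * ℓ) := ⟨Nat.mul_ne_zero (NeZero.ne N) (NeZero.ne ℓ)⟩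
  unfold prodChar
  rw [MulChar.mul_apply]
  by_cases hx : IsUnit x
  · obtain ⟨u, rfl⟩ := hx
    rw [DirichletCharacter.changeLevel_eq_cast_of_dvd, DirichletCharacter.changeLevel_eq_cast_of_dvd,
      ZMod.castHom_apply, ZMod.castHom_apply]
  · rw [MulChar.map_nonunit _ hx, zero_mul]
    -- one of the two reductions is a non-unit
    have hxv : ((x.val : ℕ) : ZMod (N * ℓ)) = x := ZMod.natCast_zmod_val x
    have hcop : ¬ (x.val).Coprime (N * ℓ) := by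
      intro h
      apply hx
      rw [← hxv]
      exact (ZMod.isUnit_iff_coprime _ _).mpr h
    rw [Nat.coprime_mul_iff_right] at hcop
    have h1 : ZMod.castHom (Dvd.intro ℓ rfl) (ZMod N) x = ((x.val : ℕ) : ZMod N) := by
      rw [← hxv, map_natCast, hxv]
    have h2 : ZMod.castHom (Dvd.intro_left N rfl) (ZMod ℓ) x = ((x.val : ℕ) : ZMod ℓ) := by
      rw [← hxv, map_natCast, hxv]
    by_cases hN : (x.val).Coprime N
    · have hℓ : ¬ (x.val).Coprime ℓ := fun h => hcop ⟨hN, h⟩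
      rw [h2, MulChar.map_nonunit χ (fun h => hℓ ((ZMod.isUnit_iff_coprime _ _).mp h)), mul_zero]
    · rw [h1, MulChar.map_nonunit ε (fun h => hN ((ZMod.isUnit_iff_coprime _ _).mp h)), zero_mul]

/-! ### The assembly -/

/-- **DS4 from the named inputs**: the conclusion is the body of the skeleton's kernel `DS4`
(with `IsModLRep` unfolded). -/
theorem ds4_of_inputs (hRat : InRational) (hEis : InEisOne)
    (hHecke : ∀ (M : ℕ) [NeZero M] (ψ : DirichletCharacter ℂ M), HasHecke M 2 ψ)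
    (hX1 : X1Out)
    (N : ℕ) [NeZero N] (ε : DirichletCharacter ℂ N) (a e : ℕ → Zbar)
    (hsys : ∃ f : CuspForm (Gamma1 N) 1, qCoeff f 1 = 1 ∧
      (∀ p : ℕ, p.Prime → ¬ p ∣ N → ∀ n : ℕ,
        qCoeff f (p * n) + ε (p : ZMod N) * (if p ∣ n then qCoeff f (n / p) else 0) =
          qCoeff f p * qCoeff f n) ∧
      ∀ p : ℕ, p.Prime → ¬ p ∣ N → qCoeff f p = (a p : ℂ))
    (he : ∀ p : ℕ, (e p : ℂ) = ε (p : ZMod N)) :
    ∃ L : Set ℕ, L.Infinite ∧ ∀ ℓ ∈ L, ℓ.Prime ∧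
      ∃ (k : Type) (_ : Field k) (_ : CharP k ℓ) (φ : Zbar →+* k) (ρ : Γℚ →* GL (Fin 2) k),
        GaloisFactorsThroughFiniteLevel ρ ∧
        ((Deformation.matrixRepresentation ρ).IsIrreducible ∨
          ∃ P : GL (Fin 2) k, ∀ g : Γℚ,
            ((P * ρ g * P⁻¹ : GL (Fin 2) k) : Matrix (Fin 2) (Fin 2) k).IsDiag) ∧
        ∀ p : ℕ, p.Prime → ¬ p ∣ N → p ≠ ℓ →
          ∀ A : ValuationSubring (AlgebraicClosure ℚ), A.LiesOverPrime p →
            (∀ σ ∈ A.inertiaSubgroupIn ℚ, ρ σ = 1) ∧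
            ∀ σ : Γℚ, A.IsFrobeniusAt σ p →
              ((ρ σ : GL (Fin 2) k) : Matrix (Fin 2) (Fin 2) k).trace = φ (a p) ∧
              ((ρ σ : GL (Fin 2) k) : Matrix (Fin 2) (Fin 2) k).det = φ (e p) := by
  classical
  obtain ⟨f, hf1, hfT, hfa⟩ := hsys
  obtain ⟨K, g, D, hKfin, hεK, hg1, hgT, hgneb, hgK, hgf, hD0, hgD⟩ := hRat N ε f hf1 hfT
  have hm0 : 6 * N * D.natAbs ≠ 0 :=
    Nat.mul_ne_zero (Nat.mul_ne_zero (by norm_num) (NeZero.ne N)) (Int.natAbs_ne_zero.mpr hD0)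
  refine ⟨{ℓ | ℓ.Prime ∧ ¬ ℓ ∣ 6 * N * D.natAbs}, ?_, ?_⟩
  · -- infinitely many primes
    have hfin : {ℓ : ℕ | ℓ ∣ 6 * N * D.natAbs}.Finite :=
      (Finset.finite_toSet (6 * N * D.natAbs).divisors).subset fun ℓ hℓ =>
        Finset.mem_coe.mpr (Nat.mem_divisors.mpr ⟨hℓ, hm0⟩)
    exact (Nat.infinite_setOfPred_prime.sdiff hfin).mono fun ℓ hℓ => ⟨hℓ.1, hℓ.2⟩
  rintro ℓ ⟨hℓ, hℓdvd⟩
  refine ⟨hℓ, ?_⟩
  haveI : Fact ℓ.Prime := ⟨hℓ⟩
  haveI : NeZero ℓ := ⟨hℓ.ne_zero⟩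
  haveI : NeZero (N * ℓ) := ⟨Nat.mul_ne_zero (NeZero.ne N) hℓ.ne_zero⟩
  have hℓ6 : ¬ ℓ ∣ 6 := fun h => hℓdvd (Dvd.dvd.mul_right (Dvd.dvd.mul_right h N) _)
  have hℓ2 : ℓ ≠ 2 := by
    rintro rfl
    exact hℓ6 (by norm_num)
  have hℓ5 : 5 ≤ ℓ := by
    by_contra hlt
    push Not at hlt
    have h2 := hℓ.two_le
    interval_cases ℓ
    · exact hℓ6 (by norm_num)
    · exact hℓ6 (by norm_num)
    · exact absurd hℓ (by norm_num)
  have hM5 : 5 ≤ N * ℓ := hℓ5.trans (Nat.le_mul_of_pos_left ℓ (Nat.pos_of_ne_zero (NeZero.ne N)))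
  have hℓN : ¬ ℓ ∣ N := fun h => hℓdvd (Dvd.dvd.mul_right (Dvd.dvd.mul_left h 6) _)
  have hℓD : ¬ (ℓ : ℤ) ∣ D := fun h => hℓdvd (Dvd.dvd.mul_left (Int.natCast_dvd.mp h) _)
  -- the prime of `ℤ̄`, the inverse Teichmüller character and the Eisenstein series
  obtain ⟨𝔪, h𝔪max, hℓ𝔪⟩ := FLTPrelim.exists_maximalIdeal_natCast_prime_mem hℓ
  haveI := h𝔪max
  obtain ⟨χ, hχodd, hχint, hχcong, S, hS, hS1⟩ :=
    Fermat.Agent.DS.E1.exists_teichmuller_inv ℓ hℓ2 𝔪 hℓ𝔪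
  obtain ⟨E₀, hE₀neb, hE₀0, hE₀n⟩ := hEis ℓ χ hχodd
  obtain ⟨hE0, hEn⟩ := Fermat.Agent.DS.E1.eisOne_two_mul_congr_one ℓ 𝔪 hℓ𝔪 χ hχint S hS hS1 E₀
    hE₀0 hE₀n
  set E : ModularForm (Gamma1 ℓ) 1 := ((2 * ℓ : ℕ) : ℂ) • E₀ with hEdef
  have hEneb : IsNeben 1 χ E := by
    intro γ hγ
    have hc : (⇑E : ℍ → ℂ) = ((2 * ℓ : ℕ) : ℂ) • ⇑E₀ := rfl
    rw [hc, ModularForm.SL_smul_slash, hE₀neb γ hγ, smul_comm]
  -- the coefficient ring
  have hχalg : ∀ x ∈ Set.range χ, IsIntegral ℚ x := by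
    rintro _ ⟨b, rfl⟩
    obtain ⟨z, hz⟩ := hχint b
    rw [← hz]
    exact z.2.tower_top
  haveI : FiniteDimensional ℚ (IntermediateField.adjoin ℚ (Set.range χ)) :=
    IntermediateField.finiteDimensional_adjoin hχalg
  set K' : IntermediateField ℚ ℂ := K ⊔ IntermediateField.adjoin ℚ (Set.range χ) with hK'
  have hKK' : K ≤ K' := le_sup_left
  have hχK' : ∀ x, χ x ∈ K' := fun x =>
    (le_sup_right : IntermediateField.adjoin ℚ (Set.range χ) ≤ K')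
      (IntermediateField.subset_adjoin ℚ _ ⟨x, rfl⟩)
  obtain ⟨𝓞, h𝓞fin, h𝓞⟩ := exists_finite_subring K'
  haveI := h𝓞fin
  have hg𝓞 : ∀ n, (D : ℂ) * qCoeff g n ∈ 𝓞 := fun n =>
    h𝓞 _ (K'.mul_mem (K'.intCast_mem D) (hKK' (hgK n))) (hgD n)
  have hεint : ∀ x, IsIntegral ℤ (ε x) := by
    intro x
    by_cases hx : IsUnit x
    · obtain ⟨u, rfl⟩ := hx
      have hpow : ε (u : ZMod N) ^ Fintype.card (ZMod N)ˣ = 1 := by
        rw [← map_pow, ← Units.val_pow_eq_pow_val, pow_card_eq_one, Units.val_one, map_one]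
      exact IsIntegral.of_pow Fintype.card_pos (hpow ▸ isIntegral_one)
    · rw [ε.map_nonunit hx]
      exact isIntegral_zero
  have hε𝓞 : ∀ x, ε x ∈ 𝓞 := fun x => h𝓞 _ (hKK' (hεK x)) (hεint x)
  have hχ𝓞 : ∀ x, χ x ∈ 𝓞 := fun x => by
    obtain ⟨z, hz⟩ := hχint x
    exact h𝓞 _ (hχK' x) (hz ▸ z.2)
  have hEcoeff : ∀ n, qCoeff E n = ((2 * ℓ : ℕ) : ℂ) * qCoeff E₀ n := fun n =>
    Fermat.Agent.DS.E1.qCoeff_smul _ E₀ n
  have hE𝓞 : ∀ n, qCoeff E n ∈ 𝓞 := by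
    intro n
    rcases Nat.eq_zero_or_pos n with rfl | hn
    · obtain ⟨c₀, hc₀, -⟩ := hE0
      refine h𝓞 _ ?_ (hc₀ ▸ c₀.2)
      rw [hEcoeff, hE₀0]
      refine K'.mul_mem (K'.natCast_mem _) (K'.mul_mem ?_ (K'.sum_mem fun b _ =>
        K'.mul_mem (K'.natCast_mem _) (hχK' b)))
      exact K'.neg_mem (K'.div_mem K'.one_mem (K'.mul_mem (by exact_mod_cast K'.natCast_mem 2 : (2 : ℂ) ∈ K') (K'.natCast_mem _)))
    · obtain ⟨c, hc, -⟩ := hEn n hn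
      refine h𝓞 _ ?_ (hc ▸ c.2)
      rw [hEcoeff, hE₀n n hn]
      exact K'.mul_mem (K'.natCast_mem _) (K'.sum_mem fun d _ => hχK' _)
  -- the weight-two eigen-system
  have hDm : ((D : ℤ) : Zbar) ∉ 𝔪 := intCast_notMem_of_not_dvd hℓ h𝔪max hℓ𝔪 hℓD
  have hgT' : ∀ p : ℕ, p.Prime → ¬ p ∣ N → ∀ n : ℕ,
      qCoeff g (p * n) + ε (p : ZMod N) * (if p ∣ n then qCoeff g (n / p) else 0) =
        (a p : ℂ) * qCoeff g n := fun p hp hpN n => by
    rw [hgT p hp hpN n, hgf p hp hpN, hfa p hp hpN]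
  obtain ⟨v, b, hv0, hvneb, hvrel, hba⟩ := exists_weightTwo_system N ε g hg1 hgneb a hgT' ℓ 𝔪 𝓞 D
    hDm hg𝓞 hε𝓞 χ hχ𝓞 hχcong E hEneb hE𝓞 hE0 hEn (prodChar ε χ) (prodChar_apply ε χ)
    (hHecke (N * ℓ) (prodChar ε χ))
  -- the residue field and the representation
  let k : Type := Zbar ⧸ 𝔪
  letI : Field k := Ideal.Quotient.field 𝔪
  let φ : Zbar →+* k := Ideal.Quotient.mk 𝔪
  have hφ : ∀ z : Zbar, z ∈ 𝔪 → φ z = 0 := fun z hz => Ideal.Quotient.eq_zero_iff_mem.mpr hz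
  haveI : CharP k ℓ := by
    have h0 : ((ℓ : ℕ) : k) = 0 := by
      have := hφ _ hℓ𝔪
      rwa [map_natCast] at this
    exact ringChar.of_eq (CharP.ringChar_of_prime_eq_zero hℓ h0)
  -- the values of `ψ` as algebraic integers
  have hψint : ∀ x, IsIntegral ℤ (prodChar ε χ x) := fun x => by
    rw [prodChar_apply]
    exact (isIntegral_of_mem_finite 𝓞 (hε𝓞 _)).mul (isIntegral_of_mem_finite 𝓞 (hχ𝓞 _))
  let e' : ℕ → Zbar := fun p => ⟨prodChar ε χ (p : ZMod (N * ℓ)), hψint _⟩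
  obtain ⟨ρ, hρunr, hρfrob⟩ := hX1 (N * ℓ) hM5 (prodChar ε χ) v b e' hv0 hvneb (fun _ => rfl) hvrel
    ℓ hℓ hℓ5 k φ
  obtain ⟨ρ', hρ'fin, hρ'ss, hρ'ker, hρ'cp⟩ := exists_semisimple_model ρ
  refine ⟨k, inferInstance, inferInstance, φ, ρ', hρ'fin, hρ'ss, ?_⟩
  intro p hp hpN hpℓ A hA
  have hpM : ¬ p ∣ N * ℓ * ℓ := by
    intro h
    rcases (Nat.Prime.dvd_mul hp).mp h with h | h
    · rcases (Nat.Prime.dvd_mul hp).mp h with h | h
      · exact hpN h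
      · exact hpℓ ((Nat.prime_dvd_prime_iff_eq hp hℓ).mp h)
    · exact hpℓ ((Nat.prime_dvd_prime_iff_eq hp hℓ).mp h)
  have hpNℓ : ¬ p ∣ N * ℓ := fun h => hpM (Dvd.dvd.mul_right h ℓ)
  refine ⟨fun σ hσ => hρ'ker σ (hρunr p hp hpM A hA σ hσ), fun σ hσ => ?_⟩
  have hcp := (hρ'cp σ).trans (hρfrob p hp hpM A hA σ hσ)
  rw [Matrix.charpoly_fin_two] at hcp
  -- compare coefficients
  have htr : ((ρ' σ : GL (Fin 2) k) : Matrix (Fin 2) (Fin 2) k).trace = φ (b p) := by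
    have := congrArg (fun P : k[X] => P.coeff 1) hcp
    simp only [coeff_add, coeff_sub, coeff_X_pow, coeff_C_mul, coeff_X_one, coeff_C] at this
    simpa using this
  have hdet : ((ρ' σ : GL (Fin 2) k) : Matrix (Fin 2) (Fin 2) k).det = φ (e' p) * (p : k) := by
    have := congrArg (fun P : k[X] => P.coeff 0) hcp
    simp only [coeff_add, coeff_sub, coeff_X_pow, coeff_C_mul, coeff_X_zero, coeff_C] at this
    simpa using this
  refine ⟨?_, ?_⟩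
  · -- trace
    rw [htr]
    have := hφ _ (hba p hp hpNℓ)
    rw [map_sub, sub_eq_zero] at this
    exact this
  · -- determinant
    rw [hdet]
    have hpℓ' : ¬ ℓ ∣ p := fun h => hpℓ ((Nat.prime_dvd_prime_iff_eq hℓ hp).mp h).symm
    obtain ⟨z, hz, hz𝔪⟩ := hχcong p hpℓ'
    have he' : e' p = e p * z := by
      apply Subtype.ext
      show prodChar ε χ (p : ZMod (N * ℓ)) = (e p : ℂ) * (z : ℂ)
      rw [prodChar_apply, map_natCast (ZMod.castHom (Dvd.intro ℓ rfl) (ZMod N)) p,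
        map_natCast (ZMod.castHom (Dvd.intro_left N rfl) (ZMod ℓ)) p, he, hz]
    have h1 := hφ _ hz𝔪
    rw [map_sub, map_mul, map_one, map_natCast, sub_eq_zero] at h1
    rw [he', map_mul, mul_assoc, h1, mul_one]

end Fermat.Agent.DS.DS4
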