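/-
PROGRAMME III (S48, Deligne–Serre), kernel DS4 (helper28): the skeleton's kernel `DS4` from the
port ALONE.

`ds4_of_x1Out : X1Out → S48Skeleton.DS4`: the named inputs `InRational` (helper22's
`IsEigen.exists_rational_closed` + helper2's `isNeben_of_hT`), `InEisOne` (helper18's
`exists_eisOne`) and `HasHecke` (helper2's `hasHecke`) are discharged by the owners' theorems,
vendored byte-identically.
-/
import Fermat.Agent.DS.DS4.Assembly
import Fermat.Agent.DS.DS1.Closed
import Fermat.Agent.DS.Neben.HasHecke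
import Fermat.Agent.DS.E1.Final

set_option autoImplicit false

open scoped MatrixGroups ModularForm
open CongruenceSubgroup UpperHalfPlane ModularFormClass

namespace Fermat.Agent.DS.DS4

/-- DS0 + DS1: the `K`-rational nebentypus eigenvector with bounded denominators. -/
theorem inRational : InRational := by
  intro N _ ε f hf1 hfT
  have h : Fermat.Agent.DS.DS1.IsEigen N ε f := ⟨hf1, hfT⟩
  obtain ⟨g, hg, hgK, hgp, D, hD0, hgD⟩ := h.exists_rational_closed
  exact ⟨Fermat.Agent.DS.DS1.coeffField ε f, g, D, h.finiteDimensional_coeffField_closed,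
    Fermat.Agent.DS.DS1.char_mem_coeffField ε f, hg.one, hg.rel,
    Fermat.Agent.DS.Neben.isNeben_of_hT ε g hg.rel, hgK, hgp, hD0, hgD⟩

/-- E1: the weight-one Eisenstein series. -/
theorem inEisOne : InEisOne := fun ℓ _ χ hχ => Fermat.Agent.DS.E1.exists_eisOne ℓ χ hχ

/-- **DS4 from the port alone.** -/
theorem ds4_of_x1Out (hX1 : X1Out) : Fermat.Agent.DS.S48Skeleton.DS4 := by
  intro N _ ε a e hsys he
  obtain ⟨L, hL, h⟩ := ds4_of_inputs inRational inEisOne
    (fun M _ ψ => Fermat.Agent.DS.Neben.hasHecke M 2 ψ) hX1 N ε a e hsys he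
  refine ⟨L, hL, fun ℓ hℓ => ⟨(h ℓ hℓ).1, ?_⟩⟩
  obtain ⟨k, i1, i2, φ, ρ, h1, h2, h3⟩ := (h ℓ hℓ).2
  exact ⟨k, i1, i2, φ, ρ, ⟨h1, h2, h3⟩⟩

end Fermat.Agent.DS.DS4
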