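/-
PROGRAMME III (S48, Deligne–Serre), the seam DS4 ⇄ X1-KUM (helper28).

The hypotheses of `X1Out` (DS/DS4/Assembly.lean), in the vocabulary of DS4-ALG
(`IsNeben 2 ψ v`, `HeckeRel M 2 ψ (qCoeff v) b`), feed helper9's KUM-3
(`Fermat.Agent.DS.Kum.exists_parabolic_eigenvector_of_qCoeff`, DS/Kum/PeriodOne.lean) with no
further input: the period homomorphism of `v` is a nonzero parabolic homomorphism
`Γ₁(M) → ℂ`, an eigenvector of the transfer operators `hecke1` (eigenvalues `b p`) and of the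
diamond operators `diamondUnit` (eigenvalues `ψ d`).
-/
import Mathlib
import Fermat.Agent.DS.DS4.Defs
import Fermat.Agent.DS.Kum.PeriodOne

set_option autoImplicit false

open scoped MatrixGroups ModularForm
open CongruenceSubgroup UpperHalfPlane ModularFormClass ModularCurve.Period

namespace Fermat.Agent.DS.DS4

open Fermat.Agent.DS.Kum

/-- **The seam DS4 ⇄ X1-KUM.** A nonzero weight two cusp form `v` on `Γ₁(M)` with nebentypus `ψ`
whose `q`-coefficients satisfy the formal Hecke relations with eigenvalues `b p` (`p ∤ M`) has a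
period homomorphism `Ψ ≠ 0`, parabolic, with `T_p Ψ = b p • Ψ` and `⟨d⟩ Ψ = ψ d • Ψ`. -/
theorem exists_parabolic_eigenvector_of_heckeRel (M : ℕ) [NeZero M]
    (ψ : DirichletCharacter ℂ M) (v : CuspForm (Gamma1 M) 2) (b : ℕ → ℂ) (hv : v ≠ 0)
    (hneb : IsNeben 2 ψ v) (hrel : HeckeRel M 2 ψ (fun n => qCoeff v n) b) :
    ∃ Ψ : Additive ↥(Gamma1 M) →+ ℂ, Ψ ≠ 0 ∧ IsParabolicHom (Gamma1 M) Ψ ∧
      (∀ (p : ℕ) (hp : p.Prime) (hpM : ¬ p ∣ M), hecke1 M ℂ hp hpM Ψ = b p • Ψ) ∧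
      ∀ d : (ZMod M)ˣ, diamondUnit M ℂ d Ψ = ψ (d : ZMod M) • Ψ := by
  refine exists_parabolic_eigenvector_of_qCoeff M v hv (fun d => ψ (d : ZMod M)) ?_
    (fun p _ _ => b p) ?_
  · intro δ d hδ
    have h := hneb (δ : SL(2, ℤ)) δ.2
    have e : (((δ : SL(2, ℤ)) 1 1 : ℤ) : ZMod M) = (d : ZMod M) := hδ
    rw [e] at h
    exact h
  · intro p hp hpM n
    have h := hrel p hp hpM n
    simp only [coe_primeUnit]
    have e : (p : ℂ) ^ (2 - 1) = (p : ℂ) := by norm_num
    rw [e] at h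
    exact h

end Fermat.Agent.DS.DS4
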